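import Mathlib
import Fermat.Prelude.Def_FLTPrelim_Ramification
import Fermat.Agent.S54lib.FrobExists

/-!
# (M) A normal open subgroup of `G_ℚ` containing all inertia groups is everything
-/

set_option autoImplicit false
set_option synthInstance.maxHeartbeats 200000
open scoped Pointwise NumberField
open Polynomial

namespace Fermat.Agent.S13lib

open Fermat.Agent.FrobExists

noncomputable section

attribute [local instance] isAlgebraicQb isAlgClosureQb normalQb isGaloisQb isInvariantZb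
  topZb discZb contZb

/-- An element of `G_ℚ` stabilising the prime of `Zb` cut out by `A` lies in the decomposition
group of `A`. -/
theorem mem_decomposition_of_smul_primeOf (A : ValuationSubring Qb) {ℓ : ℕ} (hℓ : ℓ.Prime)
    (hA : A.LiesOverPrime ℓ) (σ : GQ) (hσ : σ • primeOf A = primeOf A) :
    σ ∈ A.decompositionSubgroup ℚ := by
  have hσinv : σ⁻¹ • primeOf A = primeOf A := by
    conv_lhs => rw [← hσ]
    rw [inv_smul_smul]
  rw [MulAction.mem_stabilizer_iff]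
  apply SetLike.ext
  intro x
  rw [ValuationSubring.mem_pointwise_smul_iff_inv_smul_mem]
  constructor
  · intro h
    have := apply_mem_of_smul_primeOf_eq A hℓ hA σ hσ _ h
    rwa [AlgEquiv.smul_def, ← AlgEquiv.mul_apply, mul_inv_cancel] at this
  · intro h
    exact apply_mem_of_smul_primeOf_eq A hℓ hA σ⁻¹ hσinv _ h

/-- Criterion for membership in the inertia group of `A` in terms of algebraic integers. -/
theorem mem_inertiaSubgroupIn (A : ValuationSubring Qb) {ℓ : ℕ} (hℓ : ℓ.Prime)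
    (hA : A.LiesOverPrime ℓ) (σ : GQ) (hσ : σ • primeOf A = primeOf A)
    (hin : ∀ b : Zb, σ • b - b ∈ primeOf A) : σ ∈ A.inertiaSubgroupIn ℚ := by
  have hdec := mem_decomposition_of_smul_primeOf A hℓ hA σ hσ
  refine ⟨⟨σ, hdec⟩, ?_, rfl⟩
  set g : A.decompositionSubgroup ℚ := ⟨σ, hdec⟩ with hg
  show g ∈ A.inertiaSubgroup ℚ
  rw [ValuationSubring.inertiaSubgroup, MonoidHom.mem_ker]
  ext xbar
  show g • xbar = xbar
  obtain ⟨x, rfl⟩ := IsLocalRing.residue_surjective xbar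
  have key : ∀ c : Zb, IsLocalRing.residue A (g • incl A c) = IsLocalRing.residue A (incl A c) := by
    intro c
    have h1 : incl A (σ • c - c) ∈ IsLocalRing.maximalIdeal A := hin c
    rw [map_sub, ← IsLocalRing.residue_eq_zero_iff, map_sub, sub_eq_zero] at h1
    rw [← h1]
    rfl
  have halg : IsAlgebraic ℤ (x : Qb) :=
    (IsFractionRing.isAlgebraic_iff ℤ ℚ Qb).mpr (Algebra.IsAlgebraic.isAlgebraic (x : Qb))
  obtain ⟨b, hb, hbn, hbx⟩ := exists_mul_isIntegral A hℓ hA x x.2 halg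
  have hmul : incl A ⟨b, hb⟩ * x = incl A ⟨_, hbx⟩ := Subtype.ext rfl
  have hbne : IsLocalRing.residue A (incl A ⟨b, hb⟩) ≠ 0 := by
    rw [Ne, IsLocalRing.residue_eq_zero_iff]
    intro h
    exact hbn ((mem_primeOf A ⟨b, hb⟩).mp h)
  have h2 : IsLocalRing.residue A (g • (incl A ⟨b, hb⟩ * x))
      = IsLocalRing.residue A (incl A ⟨b, hb⟩ * x) := by
    rw [hmul]; exact key _
  rw [smul_mul', map_mul, map_mul, key] at h2
  rw [← IsLocalRing.ResidueField.residue_smul]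
  exact mul_left_cancel₀ hbne h2

theorem exists_inertia_ne_one (K : Type*) [Field K] [NumberField K] [IsGalois ℚ K]
    (hK : 1 < Module.finrank ℚ K) :
    ∃ p : ℕ, p.Prime ∧ ∀ (P : Ideal (𝓞 K)) [P.IsPrime], (p : 𝓞 K) ∈ P →
      ∃ τ : Gal(K/ℚ), τ ≠ 1 ∧ ∀ x : 𝓞 K, τ • x - x ∈ P := by
  obtain ⟨p, hp, h⟩ := NumberField.exists_not_isUnramifiedAt_int_of_isGalois (K := K) (𝒪 := 𝓞 K) hK
  refine ⟨p, hp, fun P _ hpP => ?_⟩
  have h1 := h P inferInstance hpP
  by_contra hcon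
  push Not at hcon
  apply h1
  have hcard : Nat.card (P.inertia Gal(K/ℚ)) = 1 := by
    rw [Nat.card_eq_one_iff_unique]
    refine ⟨⟨fun a b => ?_⟩, ⟨1⟩⟩
    have ha : (a : Gal(K/ℚ)) = 1 := by
      by_contra hne
      obtain ⟨x, hx⟩ := hcon a hne
      exact hx (a.2 x)
    have hb : (b : Gal(K/ℚ)) = 1 := by
      by_contra hne
      obtain ⟨x, hx⟩ := hcon b hne
      exact hx (b.2 x)
    exact Subtype.ext (ha.trans hb.symm)
  have hpne : P.under ℤ ≠ ⊥ := by
    intro hbot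
    have : (p : ℤ) ∈ P.under ℤ := by
      rw [Ideal.mem_comap]
      simpa using hpP
    rw [hbot, Ideal.mem_bot] at this
    exact hp.ne_zero (by exact_mod_cast this)
  have : (P.under ℤ).IsMaximal := Ideal.IsPrime.isMaximal inferInstance hpne
  rw [Ideal.card_inertia_eq_ramificationIdxIn (P.under ℤ) P,
    Ideal.ramificationIdxIn_eq_ramificationIdx (P.under ℤ) P Gal(K/ℚ)] at hcard
  rw [← Ideal.ramificationIdx_eq_one_iff]
  exact hcard

variable (K : IntermediateField ℚ Qb)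

/-- the inclusion of the integers of `K` in all algebraic integers -/
def iotaK : 𝓞 K →+* Zb where
  toFun x := ⟨((x : K) : Qb), by
    have h : IsIntegral ℤ (x : K) := x.2
    exact h.map (IsScalarTower.toAlgHom ℤ K Qb)⟩
  map_one' := rfl
  map_mul' _ _ := rfl
  map_zero' := rfl
  map_add' _ _ := rfl

@[instance_reducible] def algK : Algebra (𝓞 K) Zb := (iotaK K).toAlgebra
attribute [local instance] algK

theorem algebraMap_coe (x : 𝓞 K) : ((algebraMap (𝓞 K) Zb x : Zb) : Qb) = ((x : K) : Qb) := rfl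

theorem smulCommK : SMulCommClass ↥K.fixingSubgroup (𝓞 K) Zb := by
  refine ⟨fun h a b => ?_⟩
  rw [Algebra.smul_def, Algebra.smul_def, smul_mul']
  congr 1
  apply Subtype.ext
  exact h.2 ⟨_, (a : K).2⟩
attribute [local instance] smulCommK

theorem isInvariantK : Algebra.IsInvariant (𝓞 K) Zb ↥K.fixingSubgroup := by
  refine ⟨fun b hb => ?_⟩
  have h1 : (b : Qb) ∈ IntermediateField.fixedField K.fixingSubgroup := by
    intro f
    exact congrArg Subtype.val (hb f)
  rw [InfiniteGalois.fixedField_fixingSubgroup] at h1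
  have h2 : IsIntegral ℤ (⟨(b : Qb), h1⟩ : K) := by
    have : IsIntegral ℤ (algebraMap K Qb ⟨(b : Qb), h1⟩) := b.2
    exact (isIntegral_algebraMap_iff (algebraMap K Qb).injective).mp this
  exact ⟨⟨_, h2⟩, Subtype.ext rfl⟩
attribute [local instance] isInvariantK

theorem compactK : CompactSpace ↥K.fixingSubgroup :=
  isCompact_iff_compactSpace.mp (InfiniteGalois.fixingSubgroup_isClosed K).isCompact
attribute [local instance] compactK

theorem nfK [FiniteDimensional ℚ K] : NumberField K := ⟨⟩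
attribute [local instance] nfK

theorem exists_lift_inertia [FiniteDimensional ℚ K] [IsGalois ℚ K]
    (Pt : Ideal Zb) [Pt.IsPrime] (τ : Gal(K/ℚ)) (hτ : ∀ x : 𝓞 K, τ • x - x ∈ Pt.under (𝓞 K)) :
    ∃ σ : GQ, σ • Pt = Pt ∧ (∀ b : Zb, σ • b - b ∈ Pt) ∧
      ∀ x : K, σ (x : Qb) = ((τ x : K) : Qb) := by
  obtain ⟨σ0, hσ0⟩ := AlgEquiv.restrictNormalHom_surjective (F := ℚ) (K₁ := K) Qb τ
  have hres : ∀ x : K, σ0 (x : Qb) = ((τ x : K) : Qb) := by
    intro x
    rw [← hσ0]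
    exact (AlgEquiv.restrictNormal_commutes σ0 K x).symm
  have h0 : ∀ a : 𝓞 K, σ0 • (algebraMap (𝓞 K) Zb a) = algebraMap (𝓞 K) Zb (τ • a) := by
    intro a
    apply Subtype.ext
    exact hres (a : K)
  have h0' : ∀ a : 𝓞 K, σ0⁻¹ • (algebraMap (𝓞 K) Zb a) = algebraMap (𝓞 K) Zb (τ⁻¹ • a) := by
    intro a
    rw [inv_smul_eq_iff, h0, smul_inv_smul]
  have hunder : (σ0 • Pt).under (𝓞 K) = Pt.under (𝓞 K) := by
    ext x
    rw [Ideal.mem_comap, Ideal.mem_pointwise_smul_iff_inv_smul_mem, h0', ← Ideal.mem_comap]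
    have h1 := hτ (τ⁻¹ • x)
    rw [smul_inv_smul] at h1
    constructor
    · intro h
      have := Ideal.add_mem _ h1 h
      simpa using this
    · intro h
      have := Ideal.sub_mem _ h h1
      simpa using this
  obtain ⟨g, hg⟩ := Algebra.IsInvariant.exists_smul_of_under_eq_of_profinite (A := 𝓞 K)
    (G := ↥K.fixingSubgroup) (σ0 • Pt) Pt hunder
  set σ1 : GQ := (g : GQ) * σ0 with hσ1
  have hσ1P : σ1 • Pt = Pt := by
    rw [hσ1, mul_smul]
    exact hg.symm
  have hσ1a : ∀ a : 𝓞 K, σ1 • (algebraMap (𝓞 K) Zb a) = algebraMap (𝓞 K) Zb (τ • a) := by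
    intro a
    rw [hσ1, mul_smul, h0]
    exact smul_algebraMap g (τ • a)
  let φ0 := Ideal.Quotient.stabilizerHom Pt (Pt.under ℤ) GQ ⟨σ1, hσ1P⟩
  let φ : (Zb ⧸ Pt) ≃ₐ[𝓞 K ⧸ Pt.under (𝓞 K)] (Zb ⧸ Pt) :=
    AlgEquiv.ofRingEquiv (f := φ0.toRingEquiv) (by
      intro r
      obtain ⟨a, rfl⟩ := Ideal.Quotient.mk_surjective r
      show φ0 (Ideal.Quotient.mk Pt (algebraMap (𝓞 K) Zb a)) =
        Ideal.Quotient.mk Pt (algebraMap (𝓞 K) Zb a)
      rw [Ideal.Quotient.stabilizerHom_apply]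
      show Ideal.Quotient.mk Pt (σ1 • algebraMap (𝓞 K) Zb a) = _
      rw [hσ1a, Ideal.Quotient.eq, ← map_sub]
      exact hτ a)
  obtain ⟨h', hh'⟩ := Ideal.Quotient.stabilizerHom_surjective_of_profinite
    (G := ↥K.fixingSubgroup) (Pt.under (𝓞 K)) Pt φ
  obtain ⟨η, hη⟩ : ∃ η : GQ, η = ((h' : ↥K.fixingSubgroup) : GQ) := ⟨_, rfl⟩
  have hηK : η ∈ K.fixingSubgroup := hη ▸ (h' : ↥K.fixingSubgroup).2
  have hh'P : η • Pt = Pt := hη ▸ h'.2
  have hcong : ∀ b : Zb, σ1 • b - η • b ∈ Pt := by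
    intro b
    have h1 := congrArg (fun f => f (Ideal.Quotient.mk Pt b)) hh'
    simp only [Ideal.Quotient.stabilizerHom_apply] at h1
    rw [← Ideal.Quotient.eq, hη]
    exact h1.symm
  clear_value φ φ0
  clear hh' hη
  refine ⟨η⁻¹ * σ1, ?_, ?_, ?_⟩
  · rw [mul_smul, hσ1P, inv_smul_eq_iff, hh'P]
  · intro b
    have h1 := hcong b
    rw [← hh'P, Ideal.mem_pointwise_smul_iff_inv_smul_mem, smul_sub, inv_smul_smul,
      ← mul_smul] at h1
    exact h1
  · intro x
    have hfix : ∀ (y : K), (g : GQ) (y : Qb) = (y : Qb) := fun y => g.2 y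
    have hfix' : ∀ (y : K), η⁻¹ (y : Qb) = (y : Qb) := fun y => (K.fixingSubgroup.inv_mem hηK) y
    rw [AlgEquiv.mul_apply, hσ1, AlgEquiv.mul_apply, hres, hfix, hfix']

/-- **(M)** A normal open subgroup of `G_ℚ` containing an inertia group at every prime is
everything (Minkowski: `ℚ` has no nontrivial everywhere unramified extension). -/
theorem eq_top_of_isOpen_of_inertia_le
    (H : Subgroup (AlgebraicClosure ℚ ≃ₐ[ℚ] AlgebraicClosure ℚ))
    [H.Normal] (hopen : IsOpen (H : Set (AlgebraicClosure ℚ ≃ₐ[ℚ] AlgebraicClosure ℚ)))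
    (hin : ∀ ℓ : ℕ, ℓ.Prime → ∃ A : ValuationSubring (AlgebraicClosure ℚ), A.LiesOverPrime ℓ ∧
      A.inertiaSubgroupIn ℚ ≤ H) : H = ⊤ := by
  set K : IntermediateField ℚ Qb := IntermediateField.fixedField H with hK
  have hclosed : IsClosed (H : Set GQ) := H.isClosed_of_isOpen hopen
  have hfix : K.fixingSubgroup = H :=
    InfiniteGalois.fixingSubgroup_fixedField ⟨H, hclosed⟩
  have : FiniteDimensional ℚ K := (InfiniteGalois.isOpen_iff_finite K).mp (by rw [hfix]; exact hopen)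
  have : IsGalois ℚ K := (InfiniteGalois.normal_iff_isGalois K).mp (by rw [hfix]; infer_instance)
  by_contra hne
  have hrank : 1 < Module.finrank ℚ K := by
    by_contra hle
    have h1 : Module.finrank ℚ K = 1 := by
      have : 0 < Module.finrank ℚ K := Module.finrank_pos
      omega
    have h2 : K = ⊥ := IntermediateField.finrank_eq_one_iff.mp h1
    apply hne
    rw [← hfix, h2]
    exact IntermediateField.fixingSubgroup_bot
  obtain ⟨p, hp, h⟩ := exists_inertia_ne_one K hrank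
  obtain ⟨A, hA, hAH⟩ := hin p hp
  have hpP : (p : 𝓞 K) ∈ (primeOf A).under (𝓞 K) := by
    rw [Ideal.mem_comap, mem_primeOf]
    have : (((algebraMap (𝓞 K) Zb (p : 𝓞 K)) : Zb) : Qb) = (p : Qb) := by
      rw [map_natCast]
      simp
    rw [this]
    exact hA
  obtain ⟨τ, hτ1, hτ⟩ := h ((primeOf A).under (𝓞 K)) hpP
  obtain ⟨σ, hσP, hσb, hσK⟩ := exists_lift_inertia K (primeOf A) τ hτ
  have hσH : σ ∈ K.fixingSubgroup := by
    rw [hfix]
    exact hAH (mem_inertiaSubgroupIn A hp hA σ hσP hσb)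
  apply hτ1
  ext x
  have h1 : σ (x : Qb) = (x : Qb) := hσH x
  rw [hσK] at h1
  simpa using h1

/-- Version of **(M)** for an action of `G_ℚ`: a point with open normal stabiliser which is fixed
by all inertia groups is fixed by `G_ℚ`. -/
theorem smul_eq_self_of_inertia {X : Type*}
    [MulAction (AlgebraicClosure ℚ ≃ₐ[ℚ] AlgebraicClosure ℚ) X] (x : X)
    (hnorm : (MulAction.stabilizer (AlgebraicClosure ℚ ≃ₐ[ℚ] AlgebraicClosure ℚ) x).Normal)
    (hopen : IsOpen (MulAction.stabilizer (AlgebraicClosure ℚ ≃ₐ[ℚ] AlgebraicClosure ℚ) x :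
      Set (AlgebraicClosure ℚ ≃ₐ[ℚ] AlgebraicClosure ℚ)))
    (hin : ∀ ℓ : ℕ, ℓ.Prime → ∀ A : ValuationSubring (AlgebraicClosure ℚ), A.LiesOverPrime ℓ →
      ∀ σ ∈ A.inertiaSubgroupIn ℚ, σ • x = x)
    (σ : AlgebraicClosure ℚ ≃ₐ[ℚ] AlgebraicClosure ℚ) : σ • x = x := by
  have h := eq_top_of_isOpen_of_inertia_le (MulAction.stabilizer _ x) hopen
    (fun ℓ hℓ => by
      obtain ⟨A, hA⟩ := exists_liesOverPrime ℓ hℓ
      exact ⟨A, hA, fun τ hτ => hin ℓ hℓ A hA τ hτ⟩)
  have : σ ∈ MulAction.stabilizer (AlgebraicClosure ℚ ≃ₐ[ℚ] AlgebraicClosure ℚ) x := by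
    rw [h]; trivial
  exact this

end

end Fermat.Agent.S13lib
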