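import Fermat.Agent.S13.Basic
import Fermat.Agent.S13T.Point
import Fermat.Agent.S13T.Degree
import Fermat.Agent.S51lib.Count

/-!
# S13, task C: the `p`-torsion of the Frey curve is nontrivial and has at most `p²` elements
-/

set_option autoImplicit false

namespace Fermat.Agent.S13lib

open Polynomial WeierstrassCurve WeierstrassCurve.Affine Fermat.Agent.S05lib

local notation "Kb" => AlgebraicClosure ℚ

variable (P : FreyPackage)

lemma four_dvd_a₂ : (4 : ℤ) ∣ P.b ^ P.p - 1 - P.a ^ P.p := by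
  apply (ZMod.intCast_zmod_eq_zero_iff_dvd _ 4).mp
  have hb : ((P.b ^ P.p : ℤ) : ZMod 4) = 0 := by
    apply (ZMod.intCast_zmod_eq_zero_iff_dvd _ 4).mpr
    exact Dvd.dvd.trans (by norm_num) (thirtytwo_dvd P)
  have ha : ((P.a ^ P.p : ℤ) : ZMod 4) = -1 := by
    push_cast
    rw [P.ha4, show (3 : ZMod 4) = -1 from by decide, P.hp_odd.neg_one_pow]
  push_cast at hb ha ⊢
  rw [hb, ha]
  ring

lemma sixteen_dvd_a₄ : (16 : ℤ) ∣ -(P.a ^ P.p) * P.b ^ P.p := by
  obtain ⟨k, hk⟩ := thirtytwo_dvd P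
  exact ⟨-(P.a ^ P.p) * (2 * k), by rw [hk]; ring⟩

/-- the integral Frey curve base changes to the Frey curve -/
lemma freyCurveInt_map :
    P.freyCurveInt.map (Int.castRingHom Kb) = (P.freyCurve⁄Kb) := by
  ext
  · rw [frey_a₁]; simp [FreyPackage.freyCurveInt]
  · rw [frey_a₂]
    simp only [FreyPackage.freyCurveInt, WeierstrassCurve.map_a₂, eq_intCast]
    rw [Int.cast_div (four_dvd_a₂ P) (by norm_num)]
    push_cast; ring
  · rw [frey_a₃]; simp [FreyPackage.freyCurveInt]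
  · rw [frey_a₄]
    simp only [FreyPackage.freyCurveInt, WeierstrassCurve.map_a₄, eq_intCast]
    rw [Int.cast_div (sixteen_dvd_a₄ P) (by norm_num)]
    push_cast; ring
  · rw [frey_a₆]; simp [FreyPackage.freyCurveInt]

lemma Xc_eq_xOf (g : (P.freyCurve⁄Kb).Point) :
    Xc (P.freyCurve⁄Kb) 0 g = S51lib.xOf g := by
  rcases g with _ | ⟨x, y, h⟩
  · rfl
  · simp [S51lib.xOf]

lemma exists_half : ∃ k : ℕ, 0 < k ∧ P.p = 2 * k + 1 ∧ (P.p ^ 2 - 1) / 2 = 2 * k ^ 2 + 2 * k := by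
  obtain ⟨k, hk⟩ := P.hp_odd
  refine ⟨k, by have := P.hp5; omega, hk, ?_⟩
  rw [hk]
  have : (2 * k + 1) ^ 2 - 1 = 2 * (2 * k ^ 2 + 2 * k) := by
    have : (2 * k + 1) ^ 2 = 2 * (2 * k ^ 2 + 2 * k) + 1 := by ring
    omega
  rw [this]
  omega

/-- the integer division polynomial of the Frey curve -/
theorem frey_divPoly : ∃ f : ℤ[X], f.natDegree ≤ (P.p ^ 2 - 1) / 2 ∧
    f.coeff ((P.p ^ 2 - 1) / 2) = P.p ∧
    ∀ g : (P.freyCurve⁄Kb).Point, g ≠ 0 →
      (P.p • g = 0 ↔ aeval (Xc (P.freyCurve⁄Kb) 0 g) f = 0) := by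
  obtain ⟨k, -, hk, hd⟩ := exists_half P
  refine ⟨S13T.ladD P.freyCurveInt k, ?_, ?_, ?_⟩
  · rw [hd]; exact S13T.natDegree_ladD_le _ k
  · rw [hd, S13T.coeff_ladD, hk]; push_cast; ring
  · intro g hg
    rw [hk, ← S13T.ladD_eval_eq_zero_iff hg k, Xc_eq_xOf]
    have : S13T.ladD (P.freyCurve⁄Kb) k = (S13T.ladD P.freyCurveInt k).map (Int.castRingHom Kb) := by
      rw [← S13T.ladD_map, freyCurveInt_map]
    rw [this, eval_map, aeval_def]
    rfl

theorem frey_torsion_nontrivial :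
    Nontrivial (Submodule.torsionBy ℤ (P.freyCurve⁄Kb).Point P.p) := by
  obtain ⟨k, hk0, hk, -⟩ := exists_half P
  have hdeg : (S13T.ladD (P.freyCurve⁄Kb) k).degree ≠ 0 := by
    intro h
    have h1 : (S13T.ladD (P.freyCurve⁄Kb) k).natDegree = 0 := natDegree_eq_of_degree_eq_some h
    have h2 := S13T.coeff_ladD (P.freyCurve⁄Kb) k
    rw [coeff_eq_zero_of_natDegree_lt (by rw [h1]; positivity)] at h2
    have h3 : ((2 * k + 1 : ℕ) : Kb) = 0 := by push_cast; exact h2.symm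
    exact absurd h3 (Nat.cast_ne_zero.mpr (by omega))
  obtain ⟨ξ, hξ⟩ := IsAlgClosed.exists_root _ hdeg
  obtain ⟨g, hg, hgx⟩ := X_surj P ξ
  rw [Xc_eq_xOf] at hgx
  have h0 : P.p • g = 0 := by
    rw [hk, ← S13T.ladD_eval_eq_zero_iff hg k, hgx]; exact hξ
  refine ⟨⟨⟨g, ?_⟩, 0, fun h => hg (congrArg Subtype.val h)⟩⟩
  rw [Submodule.mem_torsionBy_iff, Nat.cast_smul_eq_nsmul]
  exact h0

theorem frey_torsion_finite_and_card :
    Finite (Submodule.torsionBy ℤ (P.freyCurve⁄Kb).Point P.p) ∧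
    Nat.card (Submodule.torsionBy ℤ (P.freyCurve⁄Kb).Point P.p) ≤ P.p ^ 2 := by
  obtain ⟨k, hk0, hk, -⟩ := exists_half P
  have hne : S13T.ladD (P.freyCurve⁄Kb) k ≠ 0 := by
    intro h
    have h2 := S13T.coeff_ladD (P.freyCurve⁄Kb) k
    rw [h, coeff_zero] at h2
    have h3 : ((2 * k + 1 : ℕ) : Kb) = 0 := by push_cast; exact h2.symm
    exact absurd h3 (Nat.cast_ne_zero.mpr (by omega))
  obtain ⟨h1, h2⟩ := S51lib.card_le_of_roots (E := (P.freyCurve⁄Kb)) hne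
    (Submodule.torsionBy ℤ (P.freyCurve⁄Kb).Point P.p : Set (P.freyCurve⁄Kb).Point) (by
      intro g hg hg0
      have hg' : P.p • g = 0 := by
        have := (Submodule.mem_torsionBy_iff _ _).mp hg
        rwa [Nat.cast_smul_eq_nsmul] at this
      rw [hk] at hg'
      exact (S13T.ladD_eval_eq_zero_iff hg0 k).mpr hg')
  refine ⟨h1, h2.trans ?_⟩
  have := S13T.natDegree_ladD_le (P.freyCurve⁄Kb) k
  rw [hk]
  nlinarith

theorem frey_torsion_finite :
    Finite (Submodule.torsionBy ℤ (P.freyCurve⁄Kb).Point P.p) :=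
  (frey_torsion_finite_and_card P).1

theorem frey_torsion_card_le :
    Nat.card (Submodule.torsionBy ℤ (P.freyCurve⁄Kb).Point P.p) ≤ P.p ^ 2 :=
  (frey_torsion_finite_and_card P).2

end Fermat.Agent.S13lib
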