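import Fermat.Agent.S13.Basic

/-!
# S13: inertia at `p` moves `p`-torsion points of the Frey curve inside the kernel of reduction
-/

set_option autoImplicit false

namespace Fermat.Agent.S13lib

open WeierstrassCurve WeierstrassCurve.Affine Fermat.Agent.S05lib

section Abstract

variable {K Γ : Type*} [Field K] [CharZero K] [DecidableEq K] [LinearOrderedCommGroupWithZero Γ]
variable {v : Valuation K Γ} {W : WeierstrassCurve.Affine K} {x₀ : K}

/-- Variant of `S05lib.inertia_trivial_on_torsion` without the hypothesis `v p = 1`: inertia moves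
`p`-torsion points inside the kernel of reduction. -/
theorem inertia_sub_mem_E1 [IsAlgClosed K] (hW : IntegralCoeffs W v) (hx₀v : v x₀ ≤ 1)
    (h2 : v 2 = 1) (hint : ∀ n : ℕ, v (n : K) ≤ 1)
    (hx₀ : 4 * x₀ ^ 3 + W.b₂ * x₀ ^ 2 + 2 * W.b₄ * x₀ + W.b₆ = 0)
    (σ : K →+* K) (act : W.Point →+ W.Point)
    (hσ1 : ∀ x, v (σ x) ≤ 1 ↔ v x ≤ 1) (hσ2 : ∀ x, v x ≤ 1 → v (σ x - x) < 1)
    (hσx₀ : σ x₀ = x₀)
    (hact : ∀ x y (h : W.Nonsingular x y), ∃ h', act (.some x y h) = .some (σ x) (σ y) h')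
    (hσa₁ : σ W.a₁ = W.a₁) (hσa₂ : σ W.a₂ = W.a₂) (hσa₃ : σ W.a₃ = W.a₃)
    (hσa₄ : σ W.a₄ = W.a₄) (hΔ : W.Δ ≠ 0) {p : ℕ} (hodd : Odd p)
    (hcase : (v (bbar W x₀) = 1 ∧ v (abar W x₀ ^ 2 - 64 * bbar W x₀) = 1) ∨
      (v (abar W x₀) = 1 ∧ ∃ β : K, β ≠ 0 ∧ v β < 1 ∧ σ β = β ∧ v (bbar W x₀) = v β ^ p))
    (P : W.Point) (hP : p • P = 0) : E1 (Xc W x₀) v (act P - P) := by
  have hX := isXMap_Xc hx₀
  have hab := abar_integral hW hx₀v hint
  have hbb := bbar_integral hW hx₀v h2 hint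
  by_cases hP0 : P = 0
  · rw [hP0, map_zero, sub_self]; exact Or.inl rfl
  have hY1 := Y1 hW hx₀v h2 hint hx₀ σ act hσ1 hσ2 hσx₀ hact
  by_cases hPint : v (Xc W x₀ P) ≤ 1
  swap
  · exact hY1 P (Or.inr (Or.inl (not_le.mp hPint)))
  rcases hcase with ⟨hb1, hdisc⟩ | ⟨ha1, β, hβ0, hβ1, hσβ, hbβ⟩
  · exact hY1 P (Or.inr (Or.inr ⟨hPint,
      ns_criterion h2 hint hab hbb hdisc hPint (Or.inr hb1)⟩))
  · have hp0 : p ≠ 0 := by rintro rfl; simp at hodd
    have hblt : v (bbar W x₀) < 1 := by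
      rw [hbβ]; exact pow_lt_one₀ zero_le hβ1 hp0
    have hb0 : bbar W x₀ ≠ 0 := by
      intro h0
      rw [h0, map_zero] at hbβ
      exact (pow_ne_zero p ((v.ne_zero_iff).mpr hβ0)) hbβ.symm
    have hdisc : v (abar W x₀ ^ 2 - 64 * bbar W x₀) = 1 := by
      have hlt : v (64 * bbar W x₀) < v (abar W x₀ ^ 2) := by
        rw [map_pow, ha1, one_pow, map_mul]
        exact lt_of_le_of_lt (mul_le_of_le_one_left' (by simpa using hint 64)) hblt
      rw [Valuation.map_sub_eq_of_lt_left v hlt, map_pow, ha1, one_pow]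
    have hE0 : ∀ R : W.Point, E0 (Xc W x₀) v R → E1 (Xc W x₀) v (act R - R) := by
      intro R hR
      apply hY1 R
      rcases hR with hR | hR
      · exact Or.inl hR
      · rcases lt_or_eq_of_le hR with hR | hR
        · exact Or.inr (Or.inl hR)
        · exact Or.inr (Or.inr ⟨hR.symm.le,
            ns_criterion h2 hint hab hbb hdisc hR.symm.le (Or.inl hR.symm)⟩)
    rcases lt_or_eq_of_le hPint with hlt | heq
    · obtain ⟨hbP, k, hk⟩ := hX.mult_torsion ha1 h2 hβ0 hβ1 hodd hbβ hP0 hP hlt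
      have hσg : σ (β ^ (2 * k)) = β ^ (2 * k) := by rw [map_zpow₀, hσβ]
      obtain ⟨P', hP'0, hXP', hactP'⟩ := Y3 h2 hx₀ σ act hσ2 hσx₀ hact hσa₁ hσa₂ hσa₃ hσa₄ hΔ ha1
        hσg (by rw [← hk]; exact hlt) (by rw [← hk]; exact hbP)
      have hsame := hX.same_level' ha1 h2 (P := P') (Q := P) hP'0 hP0 (by rw [hXP', hk])
        (by rw [hXP', ← hk]; exact hlt) (by rw [hXP', ← hk]; exact hbP) hb0
      rcases hsame with h | h
      · have := hE0 _ h
        rwa [map_add, hactP', add_sub_add_right_eq_sub] at this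
      · have := hE0 _ h
        rwa [map_sub, hactP', sub_sub_sub_cancel_right] at this
    · exact hE0 P (Or.inr heq.symm.le)

/-- the kernel of reduction does not depend on the (integral) shift -/
lemma E1_shift (hx₀v : v x₀ ≤ 1) {Q : W.Point} (h : E1 (Xc W x₀) v Q) : E1 (Xc W 0) v Q := by
  rcases Q with _ | ⟨x, y, hxy⟩
  · exact Or.inl rfl
  · rcases h with h | h
    · exact Or.inl h
    · right
      simp only [Xc_some, sub_zero] at h ⊢
      by_contra hcon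
      exact absurd ((v.map_sub _ _).trans (max_le (not_lt.mp hcon) hx₀v)) (not_le.mpr h)

end Abstract

section Frey

variable {P : FreyPackage}

local notation "Kb" => AlgebraicClosure ℚ
local notation "Wk" => (FreyPackage.freyCurve P)⁄Kb

/-- **Inertia at an odd prime `q` (possibly `q = p`)** moves the `p`-torsion of the Frey curve inside
the kernel of reduction. -/
theorem frey_inertia_E1 {q : ℕ} (hq : q.Prime) (hq2 : q ≠ 2)
    (A : ValuationSubring Kb) (hA : A.LiesOverPrime q) (σ : Kb ≃ₐ[ℚ] Kb)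
    (hσ : σ ∈ A.inertiaSubgroupIn ℚ) (x : (P.freyCurve⁄Kb).Point) (hx : P.p • x = 0) :
    E1 (Xc Wk 0) A.valuation (σ • x - x) := by
  obtain ⟨hσ1, hσ2⟩ := inertia_props A σ hσ
  set v := A.valuation with hv
  set Ak : Kb := (P.a : Kb) ^ P.p with hAk
  set Bk : Kb := (P.b : Kb) ^ P.p with hBk
  set Ck : Kb := (P.c : Kb) ^ P.p with hCk
  have hFLT : Ak + Bk = Ck := frey_FLT P
  have h2 : v 2 = 1 := by simpa using val_prime_eq_one (L := Kb) hA hq Nat.prime_two hq2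
  have hint : ∀ n : ℕ, v (n : Kb) ≤ 1 := val_nat_le_one A
  have h4 : v (4 : Kb) = 1 := by
    have : (4 : Kb) = 2 * 2 := by norm_num
    rw [this, map_mul, h2, one_mul]
  have h16 : v (16 : Kb) = 1 := by
    have : (16 : Kb) = 4 * 4 := by norm_num
    rw [this, map_mul, h4, one_mul]
  have hAle : v Ak ≤ 1 := by rw [hAk, map_pow]; exact pow_le_one' (val_int_le_one A _) _
  have hBle : v Bk ≤ 1 := by rw [hBk, map_pow]; exact pow_le_one' (val_int_le_one A _) _
  have hp0 : P.p ≠ 0 := P.hp0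
  have a1 : (Wk).a₁ = 1 := frey_a₁ P
  have a2 : (Wk).a₂ = (Bk - 1 - Ak) / 4 := frey_a₂ P
  have a3 : (Wk).a₃ = 0 := frey_a₃ P
  have a4 : (Wk).a₄ = -Ak * Bk / 16 := frey_a₄ P
  have a6 : (Wk).a₆ = 0 := frey_a₆ P
  have hW : IntegralCoeffs Wk v := by
    refine ⟨by rw [a1, map_one], ?_, by rw [a3, map_zero]; exact zero_le, ?_,
      by rw [a6, map_zero]; exact zero_le⟩
    · rw [a2, map_div₀, h4, div_one]
      exact (v.map_sub _ _).trans (max_le ((v.map_sub _ _).trans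
        (max_le hBle (by rw [map_one]))) hAle)
    · rw [a4, map_div₀, h16, div_one, map_mul, Valuation.map_neg]
      exact mul_le_one' hAle hBle
  have hσint : ∀ n : ℤ, σ (n : Kb) = n := fun n => map_intCast σ n
  have hσA : σ Ak = Ak := by rw [hAk, map_pow, hσint]
  have hσB : σ Bk = Bk := by rw [hBk, map_pow, hσint]
  have s1 : σ (Wk).a₁ = (Wk).a₁ := by rw [a1, map_one]
  have s2 : σ (Wk).a₂ = (Wk).a₂ := by
    rw [a2]; simp only [map_div₀, map_sub, map_one, map_ofNat, hσA, hσB]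
  have s3 : σ (Wk).a₃ = (Wk).a₃ := by rw [a3, map_zero]
  have s4 : σ (Wk).a₄ = (Wk).a₄ := by
    rw [a4]; simp only [map_div₀, map_mul, map_neg, map_ofNat, hσA, hσB]
  have hact : ∀ x y (h : (Wk).Nonsingular x y), ∃ h',
      (Point.map (W' := P.freyCurve) σ.toAlgHom) (.some x y h)
        = .some ((σ : Kb →+* Kb) x) ((σ : Kb →+* Kb) y) h' :=
    fun x y h => ⟨_, Point.map_some (W' := P.freyCurve) σ.toAlgHom h⟩
  have main := fun (x₀ : Kb) (hx₀v : v x₀ ≤ 1)
      (hx₀ : 4 * x₀ ^ 3 + (Wk).b₂ * x₀ ^ 2 + 2 * (Wk).b₄ * x₀ + (Wk).b₆ = 0) (hσx₀ : σ x₀ = x₀)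
      hcase =>
    E1_shift hx₀v (inertia_sub_mem_E1 (W := Wk) (v := v) (x₀ := x₀) hW hx₀v h2 hint hx₀
      (σ : Kb →+* Kb) (Point.map (W' := P.freyCurve) σ.toAlgHom) hσ1 hσ2 hσx₀ hact s1 s2 s3 s4
      (frey_Δ_ne_zero P) P.hp_odd hcase x hx)
  have hvpow : ∀ n : ℤ, ¬ (q : ℤ) ∣ n → v ((n : Kb) ^ P.p) = 1 := by
    intro n hn; rw [map_pow, val_int_eq_one hA hq hn, one_pow]
  have hvpow' : ∀ n : ℤ, (q : ℤ) ∣ n → v ((n : Kb) ^ P.p) < 1 := by
    intro n hn; rw [map_pow]; exact pow_lt_one₀ zero_le (val_int_lt_one hA hn) hp0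
  rw [Point.algEquiv_smul_def]
  by_cases hc : (q : ℤ) ∣ P.c
  · have hna : ¬ (q : ℤ) ∣ P.a := not_dvd_of_gcd_eq_one hq (by rw [gcd_comm]; exact P.hgcdac) hc
    have hx₀ : 4 * (Ak / 4) ^ 3 + (Wk).b₂ * (Ak / 4) ^ 2 + 2 * (Wk).b₄ * (Ak / 4) + (Wk).b₆ = 0 := by
      simp only [b₂, b₄, b₆, a1, a2, a3, a4, a6]; ring
    have hab : abar Wk (Ak / 4) = Ak + Ck := by
      simp only [abar, b₂, a1, a2]; rw [← hFLT]; ring
    have hbb : bbar Wk (Ak / 4) = Ak * Ck / 16 := by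
      simp only [bbar, b₂, b₄, a1, a2, a3, a4]; rw [← hFLT]; ring
    refine main (Ak / 4) (by rw [map_div₀, h4, div_one]; exact hAle) hx₀
      (by simp only [map_div₀, map_ofNat, hσA]) (Or.inr ⟨?_, ((P.a * P.c : ℤ) : Kb), ?_, ?_, ?_, ?_⟩)
    · rw [hab, Valuation.map_add_eq_of_lt_left v (by rw [hvpow _ hna]; exact hvpow' _ hc)]
      exact hvpow _ hna
    · exact_mod_cast mul_ne_zero P.ha0 P.hc0
    · exact val_int_lt_one hA (Dvd.dvd.mul_left hc _)
    · exact hσint _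
    · rw [hbb, map_div₀, h16, div_one, ← map_pow]
      congr 1
      push_cast
      rw [mul_pow]
  · by_cases hab' : (q : ℤ) ∣ P.a * P.b
    · have hx₀ : 4 * (0 : Kb) ^ 3 + (Wk).b₂ * 0 ^ 2 + 2 * (Wk).b₄ * 0 + (Wk).b₆ = 0 := by
        simp only [b₆, a3, a6]; ring
      have hab : abar Wk 0 = Bk - Ak := by
        simp only [abar, b₂, a1, a2]; ring
      have hbb : bbar Wk 0 = -(Ak * Bk) / 16 := by
        simp only [bbar, b₂, b₄, a1, a2, a3, a4]; ring
      refine main 0 (by rw [map_zero]; exact zero_le) hx₀ (map_zero _)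
        (Or.inr ⟨?_, ((P.a * P.b : ℤ) : Kb), ?_, ?_, ?_, ?_⟩)
      · rw [hab]
        rcases (Nat.prime_iff_prime_int.mp hq).dvd_or_dvd hab' with h | h
        · have hnb := not_dvd_of_gcd_eq_one hq P.hgcdab h
          rw [Valuation.map_sub_eq_of_lt_left v (by rw [hvpow _ hnb]; exact hvpow' _ h)]
          exact hvpow _ hnb
        · have hna := not_dvd_of_gcd_eq_one hq (by rw [gcd_comm]; exact P.hgcdab) h
          rw [Valuation.map_sub_eq_of_lt_right v (by rw [hvpow _ hna]; exact hvpow' _ h)]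
          exact hvpow _ hna
      · exact_mod_cast mul_ne_zero P.ha0 P.hb0
      · exact val_int_lt_one hA hab'
      · exact hσint _
      · rw [hbb, map_div₀, h16, div_one, Valuation.map_neg, ← map_pow]
        congr 1
        push_cast
        rw [mul_pow]
    · have hna : ¬ (q : ℤ) ∣ P.a := fun h => hab' (Dvd.dvd.mul_right h _)
      have hnb : ¬ (q : ℤ) ∣ P.b := fun h => hab' (Dvd.dvd.mul_left h _)
      have hx₀ : 4 * (0 : Kb) ^ 3 + (Wk).b₂ * 0 ^ 2 + 2 * (Wk).b₄ * 0 + (Wk).b₆ = 0 := by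
        simp only [b₆, a3, a6]; ring
      have hab : abar Wk 0 = Bk - Ak := by
        simp only [abar, b₂, a1, a2]; ring
      have hbb : bbar Wk 0 = -(Ak * Bk) / 16 := by
        simp only [bbar, b₂, b₄, a1, a2, a3, a4]; ring
      refine main 0 (by rw [map_zero]; exact zero_le) hx₀ (map_zero _) (Or.inl ⟨?_, ?_⟩)
      · rw [hbb, map_div₀, h16, div_one, Valuation.map_neg, map_mul, hvpow _ hna, hvpow _ hnb,
          one_mul]
      · have : abar Wk 0 ^ 2 - 64 * bbar Wk 0 = Ck ^ 2 := by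
          rw [hab, hbb, ← hFLT]; ring
        rw [this, map_pow, hvpow _ hc, one_pow]

/-- the kernel of reduction at an odd prime is closed under subtraction -/
theorem frey_E1_sub {q : ℕ} (hq : q.Prime) (hq2 : q ≠ 2)
    (A : ValuationSubring Kb) (hA : A.LiesOverPrime q) {x y : (P.freyCurve⁄Kb).Point}
    (hx : E1 (Xc Wk 0) A.valuation x) (hy : E1 (Xc Wk 0) A.valuation y) :
    E1 (Xc Wk 0) A.valuation (x - y) := by
  have h2 : A.valuation 2 = 1 := by
    simpa using val_prime_eq_one (L := Kb) hA hq Nat.prime_two hq2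
  exact (frey_isXMap P).E1_sub (val_int_le_one A _) (val_int_le_one A _) h2 (val_nat_le_one A) hx hy

end Frey

end Fermat.Agent.S13lib
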