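import Mathlib
import Fermat.Prelude.Def_FLTPrelim_Ramification

/-!
# S13, task E: the Eisenstein argument
-/

set_option autoImplicit false

namespace Fermat.Agent.S13lib

open Polynomial

local notation "Kb" => AlgebraicClosure ℚ

section Val

variable {L : Type*} [Field L] (A : ValuationSubring L) {q : ℕ}

lemma eis_val_int_le_one (n : ℤ) : A.valuation (n : L) ≤ 1 := by
  rw [A.valuation_le_one_iff]; exact intCast_mem A n

variable {A}

lemma eis_val_q_lt_one (hA : A.LiesOverPrime q) : A.valuation (q : L) < 1 :=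
  (A.mem_nonunits_iff).mp hA

lemma eis_val_int_eq_one (hA : A.LiesOverPrime q) (hq : q.Prime) {n : ℤ} (hn : ¬ (q : ℤ) ∣ n) :
    A.valuation (n : L) = 1 := by
  refine le_antisymm (eis_val_int_le_one A n) (not_lt.mp fun hlt => ?_)
  have hcop : IsCoprime n (q : ℤ) := by
    rw [isCoprime_comm]
    exact (Nat.prime_iff_prime_int.mp hq).coprime_iff_not_dvd.mpr hn
  obtain ⟨u, w, huw⟩ := hcop
  have h1 : (u : L) * n + w * q = 1 := by exact_mod_cast congrArg (Int.cast : ℤ → L) huw
  have h2 : A.valuation ((u : L) * n + w * q) < 1 := by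
    refine lt_of_le_of_lt (A.valuation.map_add _ _) (max_lt ?_ ?_)
    · rw [map_mul]; exact lt_of_le_of_lt (mul_le_of_le_one_left' (eis_val_int_le_one A u)) hlt
    · rw [map_mul]
      exact lt_of_le_of_lt (mul_le_of_le_one_left' (eis_val_int_le_one A w)) (eis_val_q_lt_one hA)
  rw [h1, map_one] at h2
  exact lt_irrefl _ h2

/-- the coefficients of `∏ (X - z_i)` with all `v z_i < 1` -/
lemma eis_prod_coeff (s : Multiset L) (hs : ∀ z ∈ s, A.valuation z < 1) :
    (∀ k, A.valuation ((s.map fun x => X - C x).prod.coeff k) ≤ 1) ∧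
      ∀ k, k < Multiset.card s → A.valuation ((s.map fun x => X - C x).prod.coeff k) < 1 := by
  induction s using Multiset.induction_on with
  | empty =>
    refine ⟨fun k => ?_, fun k hk => absurd hk (by simp)⟩
    simp only [Multiset.map_zero, Multiset.prod_zero, coeff_one]
    split_ifs <;> simp
  | cons a s ih =>
    obtain ⟨ih1, ih2⟩ := ih fun z hz => hs z (Multiset.mem_cons_of_mem hz)
    have ha : A.valuation a < 1 := hs a (Multiset.mem_cons_self a s)
    have hmul : ∀ k, A.valuation (a * (s.map fun x => X - C x).prod.coeff k) < 1 := by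
      intro k
      rw [map_mul]
      exact lt_of_le_of_lt (mul_le_of_le_one_right' (ih1 k)) ha
    simp only [Multiset.map_cons, Multiset.prod_cons, Multiset.card_cons]
    constructor
    · intro k
      cases k with
      | zero =>
        rw [sub_mul, coeff_sub, coeff_C_mul, mul_coeff_zero, coeff_X_zero, zero_mul, zero_sub,
          Valuation.map_neg]
        exact (hmul 0).le
      | succ k =>
        rw [sub_mul, coeff_sub, coeff_C_mul, coeff_X_mul]
        exact le_trans (A.valuation.map_sub _ _) (max_le (ih1 k) (hmul _).le)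
    · intro k hk
      cases k with
      | zero =>
        rw [sub_mul, coeff_sub, coeff_C_mul, mul_coeff_zero, coeff_X_zero, zero_mul, zero_sub,
          Valuation.map_neg]
        exact hmul 0
      | succ k =>
        rw [sub_mul, coeff_sub, coeff_C_mul, coeff_X_mul]
        exact lt_of_le_of_lt (A.valuation.map_sub _ _) (max_lt (ih2 k (by omega)) (hmul _))

end Val

/-- A polynomial `g ∈ ℤ[X]` of degree `d > 0` with constant coefficient `p`, all of whose roots in
`ℚ̄` are in the maximal ideal of a place above `p`, is irreducible over `ℚ`. -/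
lemma eis_irreducible {p d : ℕ} (hp : p.Prime) (hd : 0 < d) (g : ℤ[X]) (hdeg : g.natDegree = d)
    (h0 : g.coeff 0 = p) (A : ValuationSubring Kb) (hA : A.LiesOverPrime p)
    (hroots : ∀ z : Kb, aeval z g = 0 → A.valuation z < 1) :
    Irreducible (g.map (Int.castRingHom ℚ)) := by
  have hg0 : g ≠ 0 := by
    rintro rfl
    simp at hdeg; omega
  set G : Kb[X] := g.map (Int.castRingHom Kb) with hG
  have hinj : Function.Injective (Int.castRingHom Kb) := Int.cast_injective
  have hGdeg : G.natDegree = d := by rw [hG, natDegree_map_eq_of_injective hinj, hdeg]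
  have hGlead : G.leadingCoeff = (g.leadingCoeff : Kb) := by
    rw [hG, leadingCoeff_map_of_injective hinj]; rfl
  have hsplit : G.Splits := IsAlgClosed.splits G
  have hprod := hsplit.eq_prod_roots
  have hcard : Multiset.card G.roots = d := by rw [← hsplit.natDegree_eq_card_roots, hGdeg]
  have hG0 : G ≠ 0 := (Polynomial.map_ne_zero_iff hinj).mpr hg0
  have hr : ∀ z ∈ G.roots, A.valuation z < 1 := by
    intro z hz
    apply hroots
    have := (mem_roots hG0).mp hz
    rw [IsRoot.def, hG, eval_map] at this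
    rw [aeval_def]
    have h2 : algebraMap ℤ Kb = Int.castRingHom Kb := RingHom.ext_int _ _
    rw [h2]; exact this
  obtain ⟨-, hc⟩ := eis_prod_coeff (A := A) G.roots hr
  rw [hcard] at hc
  have hcoeff : ∀ k, (g.coeff k : Kb) =
      (g.leadingCoeff : Kb) * ((G.roots.map fun x => X - C x).prod.coeff k) := by
    intro k
    have : G.coeff k = (g.coeff k : Kb) := by rw [hG, coeff_map]; rfl
    rw [← this, ← hGlead, ← coeff_C_mul, ← hprod]
  have hpK : (p : Kb) ≠ 0 := Nat.cast_ne_zero.mpr hp.ne_zero
  have hvp : A.valuation (p : Kb) ≠ 0 := (Valuation.ne_zero_iff _).mpr hpK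
  -- `p ∤` the leading coefficient
  have hlead : ¬ (p : ℤ) ∣ g.leadingCoeff := by
    rintro ⟨m, hm⟩
    have h1 := hcoeff 0
    rw [h0, hm] at h1
    push_cast at h1
    have h2 := congrArg A.valuation h1
    rw [map_mul, map_mul] at h2
    have h3 : A.valuation (p : Kb) * A.valuation (m : Kb) *
        A.valuation ((G.roots.map fun x => X - C x).prod.coeff 0) < A.valuation (p : Kb) := by
      rw [mul_assoc]
      have h4 : A.valuation (m : Kb) *
          A.valuation ((G.roots.map fun x => X - C x).prod.coeff 0) < 1 :=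
        lt_of_le_of_lt (mul_le_of_le_one_left' (eis_val_int_le_one A m)) (hc 0 hd)
      calc A.valuation (p : Kb) * (A.valuation (m : Kb) *
          A.valuation ((G.roots.map fun x => X - C x).prod.coeff 0))
          < A.valuation (p : Kb) * 1 := by
            exact mul_lt_mul_of_pos_left h4 (zero_lt_iff.mpr hvp)
        _ = A.valuation (p : Kb) := mul_one _
    rw [← h2] at h3
    exact lt_irrefl _ h3
  have hvlead : A.valuation (g.leadingCoeff : Kb) = 1 := eis_val_int_eq_one hA hp hlead
  have hdvd : ∀ k, k < d → (p : ℤ) ∣ g.coeff k := by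
    intro k hk
    by_contra hnd
    have h1 := eis_val_int_eq_one hA hp hnd
    rw [hcoeff k, map_mul, hvlead, one_mul] at h1
    exact absurd h1 (hc k hk).ne
  have hpZ : Prime (p : ℤ) := Nat.prime_iff_prime_int.mp hp
  have hprim : g.IsPrimitive := by
    intro r hr
    rw [C_dvd_iff_dvd_coeff] at hr
    have hcop : IsCoprime (p : ℤ) g.leadingCoeff := hpZ.coprime_iff_not_dvd.mpr hlead
    exact hcop.isUnit_of_dvd' (h0 ▸ hr 0) (hr g.natDegree)
  rw [← IsPrimitive.Int.irreducible_iff_irreducible_map_cast hprim]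
  refine irreducible_of_eisenstein_criterion (P := Ideal.span {(p : ℤ)})
    ((Ideal.span_singleton_prime hpZ.ne_zero).mpr hpZ) ?_ ?_ ?_ ?_ hprim
  · rwa [Ideal.mem_span_singleton]
  · intro n hn
    rw [Ideal.mem_span_singleton]
    apply hdvd
    rw [degree_eq_natDegree hg0, hdeg] at hn
    exact_mod_cast hn
  · rw [degree_eq_natDegree hg0, hdeg]
    exact_mod_cast hd
  · rw [h0, Ideal.span_singleton_pow, Ideal.mem_span_singleton]
    intro h
    rw [pow_two] at h
    have : (p : ℤ) * p ∣ p * 1 := by rwa [mul_one]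
    exact hpZ.not_isUnit (isUnit_of_dvd_one ((mul_dvd_mul_iff_left hpZ.ne_zero).mp this))

/-- **Task E.**  Let `f ∈ ℤ[X]` have degree `≤ d` and `X^d`-coefficient the prime `p`, and suppose
that no root of `f` in `ℚ̄` is integral at a place `A` above `p`.  Then (the reversed polynomial is
Eisenstein at `p`, hence irreducible, so) every Galois-stable finite set containing a root of `f`
has at least `d` elements. -/
theorem le_ncard_of_stable {p d : ℕ} (hp : p.Prime) (hd : 0 < d) (f : ℤ[X])
    (hdeg : f.natDegree ≤ d) (hlead : f.coeff d = p)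
    (A : ValuationSubring Kb) (hA : A.LiesOverPrime p)
    (hroots : ∀ ξ : Kb, aeval ξ f = 0 → ξ ∉ A)
    (S : Set Kb) (hS : S.Finite) (hstab : ∀ σ : Kb ≃ₐ[ℚ] Kb, ∀ ξ ∈ S, σ ξ ∈ S)
    (ξ : Kb) (hξS : ξ ∈ S) (hξ : aeval ξ f = 0) :
    d ≤ S.ncard := by
  have hpZ : (p : ℤ) ≠ 0 := Nat.cast_ne_zero.mpr hp.ne_zero
  have hnat : f.natDegree = d :=
    le_antisymm hdeg (le_natDegree_of_ne_zero (by rw [hlead]; exact hpZ))
  have hc0 : f.coeff 0 ≠ 0 := by
    intro h
    apply hroots 0 _ A.zero_mem
    rw [aeval_def, eval₂_at_zero, h, map_zero]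
  have hf0 : f ≠ 0 := fun h => hc0 (by rw [h, coeff_zero])
  set g := f.reverse with hg
  have hgdeg : g.natDegree = d := by
    rw [hg, reverse_natDegree, natTrailingDegree_eq_zero.mpr (Or.inr hc0), hnat, Nat.sub_zero]
  have hg0 : g.coeff 0 = p := by
    rw [hg, coeff_zero_reverse, leadingCoeff, hnat, hlead]
  have hrev : ∀ x : Kb, x ≠ 0 → (aeval x⁻¹ g = 0 ↔ aeval x f = 0) := by
    intro x hx
    let _ := invertibleOfNonzero hx
    have := eval₂_reverse_eq_zero_iff (algebraMap ℤ Kb) x f
    rwa [invOf_eq_inv] at this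
  have hgroots : ∀ z : Kb, aeval z g = 0 → A.valuation z < 1 := by
    intro z hz
    have hz0 : z ≠ 0 := by
      rintro rfl
      rw [aeval_def, eval₂_at_zero, hg0] at hz
      simp at hz
      exact hp.ne_zero hz
    have h1 : aeval z⁻¹ f = 0 := by
      rw [← hrev z⁻¹ (inv_ne_zero hz0), inv_inv]; exact hz
    have h2 := hroots _ h1
    rw [← A.valuation_le_one_iff, not_le, map_inv₀] at h2
    exact (one_lt_inv₀ (zero_lt_iff.mpr ((Valuation.ne_zero_iff _).mpr hz0))).mp h2
  have hirr := eis_irreducible hp hd g hgdeg hg0 A hA hgroots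
  have hξ0 : ξ ≠ 0 := by
    rintro rfl
    exact hroots 0 hξ A.zero_mem
  set z := ξ⁻¹ with hz
  have hzroot : aeval z (g.map (Int.castRingHom ℚ)) = 0 := by
    have h1 := aeval_map_algebraMap (A := ℚ) z g
    have h2 : aeval z g = 0 := (hrev ξ hξ0).mpr hξ
    rw [← h2, ← h1]
    rfl
  have hmin := minpoly.eq_of_irreducible hirr hzroot
  have : Algebra.IsAlgebraic ℚ Kb := AlgebraicClosure.isAlgebraic ℚ
  have : IsAlgClosure ℚ Kb := ⟨inferInstance, inferInstance⟩
  have : Normal ℚ Kb := IsAlgClosure.normal ℚ Kb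
  have hint : IsIntegral ℚ z := Algebra.IsIntegral.isIntegral z
  have hmdeg : (minpoly ℚ z).natDegree = d := by
    rw [← hmin, natDegree_mul_C (inv_ne_zero (leadingCoeff_ne_zero.mpr hirr.ne_zero)),
      natDegree_map_eq_of_injective Int.cast_injective, hgdeg]
  have hsep : (minpoly ℚ z).Separable := (minpoly.irreducible hint).separable
  have hcard := card_rootSet_eq_natDegree (K := Kb) hsep (IsAlgClosed.splits _)
  rw [hmdeg] at hcard
  have hsub : (minpoly ℚ z).rootSet Kb ⊆ (fun x => x⁻¹) '' S := by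
    intro y hy
    rw [← isConjRoot_iff_mem_minpoly_rootSet hint, isConjRoot_iff_exists_algEquiv] at hy
    obtain ⟨σ, hσ⟩ := hy
    refine ⟨σ.symm ξ, hstab _ _ hξS, ?_⟩
    show (σ.symm ξ)⁻¹ = y
    rw [← map_inv₀, ← hz, ← hσ, AlgEquiv.symm_apply_apply]
  calc d = Fintype.card ((minpoly ℚ z).rootSet Kb) := hcard.symm
    _ = ((minpoly ℚ z).rootSet Kb).ncard := by rw [Set.ncard_eq_toFinset_card', Set.toFinset_card]
    _ ≤ ((fun x => x⁻¹) '' S).ncard := Set.ncard_le_ncard hsub (hS.image _)
    _ ≤ S.ncard := Set.ncard_image_le hS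

end Fermat.Agent.S13lib
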