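import Mathlib
import Fermat.Prelude.Def_FLTPrelim_Ramification
import Fermat.Agent.S13.Minkowski

/-!
# S13, task G: Minkowski: `G_ℚ` is generated by inertia groups
-/

set_option autoImplicit false

namespace Fermat.Agent.S13lib

local notation "Kb" => AlgebraicClosure ℚ

/-- **Task G.**  A normal subgroup of `G_ℚ` of finite level which contains, for every prime `q`,
the inertia group of some place above `q`, is everything (there is no nontrivial everywhere
unramified extension of `ℚ`). -/
theorem eq_top_of_inertia_le (H : Subgroup (Kb ≃ₐ[ℚ] Kb)) (hn : H.Normal)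
    (hopen : ∃ F : IntermediateField ℚ Kb, FiniteDimensional ℚ F ∧ F.fixingSubgroup ≤ H)
    (h : ∀ q : ℕ, q.Prime →
      ∃ A : ValuationSubring Kb, A.LiesOverPrime q ∧ A.inertiaSubgroupIn ℚ ≤ H) :
    H = ⊤ := by
  obtain ⟨F, hF, hFH⟩ := hopen
  have h1 : IsOpen (F.fixingSubgroup : Set (Kb ≃ₐ[ℚ] Kb)) := F.fixingSubgroup_isOpen
  exact eq_top_of_isOpen_of_inertia_le H (Subgroup.isOpen_mono hFH h1) h

end Fermat.Agent.S13lib
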