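import Mathlib

/-!
# S13, task LA: linear algebra over `𝔽_p` in a space with at most `p²` elements
-/

set_option autoImplicit false

namespace Fermat.Agent.S13lib

variable {p : ℕ} [Fact p.Prime] {V : Type*} [AddCommGroup V] [Module (ZMod p) V] [Finite V]

theorem finrank_of_card (hcard : Nat.card V ≤ p ^ 2) (N : Submodule (ZMod p) V) (hbot : N ≠ ⊥)
    (htop : N ≠ ⊤) :
    Module.finrank (ZMod p) N = 1 ∧ Module.finrank (ZMod p) (V ⧸ N) = 1 := by
  have hp : 1 < p := (Fact.out : p.Prime).one_lt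
  have h1 : Nat.card V = p ^ Module.finrank (ZMod p) V := by
    rw [Module.natCard_eq_pow_finrank (K := ZMod p) (V := V), Nat.card_zmod]
  rw [h1] at hcard
  have h2 : Module.finrank (ZMod p) V ≤ 2 := (Nat.pow_le_pow_iff_right hp).mp hcard
  have h3 : 0 < Module.finrank (ZMod p) N := by
    rw [Module.finrank_pos_iff_exists_ne_zero]
    obtain ⟨x, hx, hx0⟩ := (Submodule.ne_bot_iff N).mp hbot
    exact ⟨⟨x, hx⟩, fun h => hx0 (congrArg Subtype.val h)⟩
  have h4 : Module.finrank (ZMod p) N < Module.finrank (ZMod p) V :=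
    Submodule.finrank_lt htop
  have h5 := Submodule.finrank_quotient_add_finrank N
  omega

/-- a proper nonzero subspace is a line and so is the quotient -/
theorem line_of_card (hcard : Nat.card V ≤ p ^ 2) (N : Submodule (ZMod p) V) (hbot : N ≠ ⊥)
    (htop : N ≠ ⊤) :
    (∀ x ∈ N, x ≠ 0 → ∀ y ∈ N, ∃ c : ZMod p, y = c • x) ∧
      (∀ x, x ∉ N → ∀ y : V, ∃ c : ZMod p, y - c • x ∈ N) := by
  obtain ⟨h1, h2⟩ := finrank_of_card hcard N hbot htop
  constructor
  · intro x hx hx0 y hy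
    have hne : (⟨x, hx⟩ : N) ≠ 0 := fun h => hx0 (congrArg Subtype.val h)
    obtain ⟨c, hc⟩ := (finrank_eq_one_iff_of_nonzero' (⟨x, hx⟩ : N) hne).mp h1 ⟨y, hy⟩
    exact ⟨c, (congrArg Subtype.val hc).symm⟩
  · intro x hx y
    have hne : (Submodule.Quotient.mk x : V ⧸ N) ≠ 0 := by
      rw [Ne, Submodule.Quotient.mk_eq_zero]; exact hx
    obtain ⟨c, hc⟩ := (finrank_eq_one_iff_of_nonzero' _ hne).mp h2 (Submodule.Quotient.mk y)
    refine ⟨c, ?_⟩
    rw [← Submodule.Quotient.mk_eq_zero, Submodule.Quotient.mk_sub, Submodule.Quotient.mk_smul, hc,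
      sub_self]

/-- a "unipotent" additive map preserving the line `N` is trivial on `N` and on `V / N` -/
theorem unipotent_of_card (hcard : Nat.card V ≤ p ^ 2) (N : Submodule (ZMod p) V) (hbot : N ≠ ⊥)
    (htop : N ≠ ⊤) (s : V →+ V) (hs : ∀ x ∈ N, s x ∈ N) (L : AddSubgroup V)
    (h1 : ∀ x, s x - x ∈ L) (h2 : ∀ x ∈ L, s x = x) :
    (∀ x ∈ N, s x = x) ∧ (∀ x, s x - x ∈ N) := by
  obtain ⟨hl1, hl2⟩ := line_of_card hcard N hbot htop
  have hsm : ∀ (c : ZMod p) (x : V), s (c • x) = c • s x := fun c x => ZMod.map_smul s c x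
  have hN : ∀ x ∈ N, s x = x := by
    intro x hx
    by_cases hx0 : x = 0
    · rw [hx0, map_zero]
    obtain ⟨c, hc⟩ := hl1 x hx hx0 (s x) (hs x hx)
    have h3 := h2 _ (h1 x)
    rw [map_sub, hc, hsm, hc] at h3
    have h4 : ((c - 1) * (c - 1)) • x = 0 := by
      have : ((c - 1) * (c - 1)) • x = (c • c • x - c • x) - (c • x - x) := by
        simp only [sub_smul, mul_smul, smul_sub, one_smul]
      rw [this, h3, sub_self]
    have h5 : (c - 1) * (c - 1) = 0 := (smul_eq_zero.mp h4).resolve_right hx0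
    have h6 : c = 1 := sub_eq_zero.mp (mul_self_eq_zero.mp h5)
    rw [hc, h6, one_smul]
  refine ⟨hN, fun x => ?_⟩
  by_cases hx : x ∈ N
  · rw [hN x hx, sub_self]; exact N.zero_mem
  obtain ⟨c, hc⟩ := hl2 x hx (s x)
  set n := s x - c • x with hn
  have hsx : s x = c • x + n := by rw [hn]; abel
  have h3 := h2 _ (h1 x)
  have hsn : s n = n := hN n hc
  have h4 : s (s x) = c • (c • x + n) + n := by
    conv_lhs => rw [hsx]
    rw [map_add, hsm, hsn, hsx]
  rw [map_sub, h4, hsx] at h3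
  have h5 : ((c - 1) * (c - 1)) • x = -((c - 1) • n) := by
    have e1 : ((c - 1) * (c - 1)) • x + (c - 1) • n =
        (c • (c • x + n) + n - (c • x + n)) - (c • x + n - x) := by
      simp only [sub_smul, mul_smul, smul_sub, one_smul, smul_add]
      abel
    rw [h3, sub_self] at e1
    exact eq_neg_of_add_eq_zero_left e1
  have h6 : (c - 1) * (c - 1) = 0 := by
    by_contra hne
    apply hx
    have h7 : ((c - 1) * (c - 1)) • x ∈ N := by
      rw [h5]; exact N.neg_mem (N.smul_mem _ hc)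
    have := N.smul_mem ((c - 1) * (c - 1))⁻¹ h7
    rwa [smul_smul, inv_mul_cancel₀ hne, one_smul] at this
  have h7 : c = 1 := sub_eq_zero.mp (mul_self_eq_zero.mp h6)
  rw [hsx, h7, one_smul, add_sub_cancel_left]
  exact hc

/-- the dichotomy at `p` -/
theorem dichotomy_of_card (hcard : Nat.card V ≤ p ^ 2) (N : Submodule (ZMod p) V) (hbot : N ≠ ⊥)
    (htop : N ≠ ⊤) (M : AddSubgroup V) (hM : M ≠ ⊤) (S : Set (V →+ V))
    (hS : ∀ s ∈ S, (∀ x ∈ N, s x ∈ N) ∧ ∀ x, s x - x ∈ M) :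
    (∀ s ∈ S, ∀ x, s x - x ∈ N) ∨ (∀ s ∈ S, ∀ x ∈ N, s x = x) := by
  obtain ⟨hl1, hl2⟩ := line_of_card hcard N hbot htop
  by_cases hMN : ∀ m ∈ M, m ∈ N
  · left
    intro s hs x
    exact hMN _ ((hS s hs).2 x)
  · right
    push Not at hMN
    obtain ⟨m, hmM, hmN⟩ := hMN
    have hint : ∀ x ∈ N, x ∈ M → x = 0 := by
      intro x hxN hxM
      by_contra hx0
      apply hM
      rw [eq_top_iff]
      intro y _
      obtain ⟨c, hc⟩ := hl2 m hmN y
      obtain ⟨c', hc'⟩ := hl1 x hxN hx0 _ hc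
      have : y = c' • x + c • m := by rw [← hc']; abel
      rw [this]
      exact M.add_mem (ZMod.smul_mem hxM c') (ZMod.smul_mem hmM c)
    intro s hs x hx
    have := hint (s x - x) (N.sub_mem ((hS s hs).1 x hx) hx) ((hS s hs).2 x)
    exact sub_eq_zero.mp this

end Fermat.Agent.S13lib
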