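import Fermat.Agent.S13.Mult2

/-!
# S13: abstract lemmas for residue characteristic 2
-/

set_option autoImplicit false

namespace Fermat.Agent.S05lib

variable {G L Γ : Type*} [AddCommGroup G] [Field L] [LinearOrderedCommGroupWithZero Γ]
variable {X : G → L} {a b : L} (hX : IsXMap X a b) {v : Valuation L Γ}

section Dbl

variable (ha : v a ≤ 1) (hb : v b ≤ 1) (h2 : v 2 < 1) (h20 : (2 : L) ≠ 0)

include hX ha hb h2 h20 in
/-- in residue characteristic 2, doubling goes strictly deeper into the kernel of reduction -/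
lemma IsXMap.dbl_deeper {P : G} (hP0 : P ≠ 0) (hP : 1 < v (X P)) (hPP : P + P ≠ 0) :
    v (X P) < v (X (P + P)) := by
  have hc0 : X P ≠ 0 := by
    intro h; rw [h, map_zero] at hP; exact not_lt_of_ge zero_le hP
  obtain ⟨e, he⟩ := exists_EQ (v := v) hc0
  have he0 : e < 0 := he.one_lt_iff.mp hP
  obtain ⟨t, ht⟩ := exists_EQ (v := v) h20
  have ht0 : 0 < t := ht.lt_one_iff.mp h2
  have hdbl := hX.dbl P hP0 hPP
  set c := X P with hc
  have ha' : GE v a 0 := GE_zero_iff.mpr ha
  have hb' : GE v b 0 := GE_zero_iff.mpr hb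
  have h4' : EQ v 4 (t + t) := by
    have := ht.mul ht
    norm_num at this; exact this
  have hN : EQ v (c ^ 2 - b) (e + e) := he.sq.sub_of_GE hb' (by grind)
  have hD : GE v (c * (4 * c ^ 2 + a * c + 4 * b)) (e + min (t + t + (e + e)) e) := by
    have h1 : GE v (4 * c ^ 2) (t + t + (e + e)) := h4'.ge.mul he.sq.ge
    have h3 : GE v (a * c) (0 + e) := ha'.mul he.ge
    have h4 : GE v (4 * b) (t + t + 0) := h4'.ge.mul hb'
    exact he.ge.mul (((h1.mono (by grind)).add (h3.mono (by grind))).add (h4.mono (by grind)))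
  have hne : X (P + P) * (c * (4 * c ^ 2 + a * c + 4 * b)) ≠ 0 := by
    rw [hdbl]; exact hN.sq.ne_zero
  obtain ⟨f, hf⟩ := exists_EQ (v := v) (left_ne_zero_of_mul hne)
  obtain ⟨δ, hδ⟩ := exists_EQ (v := v) (right_ne_zero_of_mul hne)
  have h1 : f + δ = (e + e) + (e + e) := by
    have := hf.mul hδ
    rw [hdbl] at this
    exact this.unique hN.sq
  have h3 : e + min (t + t + (e + e)) e ≤ δ := hD.le_of_EQ hδ
  rw [he.lt_iff hf]
  grind

include hX ha hb h2 h20 in
/-- in residue characteristic 2, torsion points of odd order are integral -/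
theorem IsXMap.integral_of_odd_torsion {P : G} (hP0 : P ≠ 0) {n : ℕ} (hodd : Odd n)
    (hnP : n • P = 0) : v (X P) ≤ 1 := by
  by_contra hcon
  have hP : 1 < v (X P) := not_le.mp hcon
  have hcop : ∀ k : ℕ, Nat.Coprime (2 ^ k) n :=
    fun k => Nat.Coprime.pow_left k (Nat.coprime_two_left.mpr hodd)
  have hne : ∀ k : ℕ, 2 ^ k • P ≠ 0 := by
    intro k h0
    apply hP0
    have h1 : ((Nat.gcd (2 ^ k) n : ℕ) : ℤ) • P = 0 := by
      rw [Nat.gcd_eq_gcd_ab, add_smul, mul_smul, mul_smul, smul_comm, natCast_zsmul, h0,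
        smul_zero, zero_add, smul_comm, natCast_zsmul, hnP, smul_zero]
    rw [hcop k] at h1
    simpa using h1
  have hmono : ∀ k : ℕ, v (X P) ≤ v (X (2 ^ k • P)) ∧ v (X (2 ^ k • P)) < v (X (2 ^ (k + 1) • P)) := by
    intro k
    induction k with
    | zero =>
      have h1 : (2 ^ (0 + 1)) • P = P + P := by simp [two_nsmul]
      have hPP : P + P ≠ 0 := by rw [← h1]; exact hne 1
      refine ⟨by simp, ?_⟩
      rw [h1]; simpa using hX.dbl_deeper ha hb h2 h20 hP0 hP hPP
    | succ k ih =>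
      have h1 : (2 ^ (k + 1 + 1)) • P = 2 ^ (k + 1) • P + 2 ^ (k + 1) • P := by
        rw [pow_succ (n := k + 1), mul_comm, mul_smul, two_nsmul]
      have hle : v (X P) ≤ v (X (2 ^ (k + 1) • P)) := ih.1.trans ih.2.le
      refine ⟨hle, ?_⟩
      rw [h1]
      exact hX.dbl_deeper ha hb h2 h20 (hne _) (lt_of_lt_of_le hP hle) (by rw [← h1]; exact hne _)
  have hn0 : 0 < n := hodd.pos
  have htot : 2 ^ Nat.totient n ≡ 1 [MOD n] := Nat.ModEq.pow_totient (Nat.coprime_two_left.mpr hodd)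
  obtain ⟨k, hk⟩ : ∃ k, Nat.totient n = k + 1 :=
    Nat.exists_eq_succ_of_ne_zero (Nat.totient_pos.mpr hn0).ne'
  have hback : 2 ^ (k + 1) • P = P := by
    rw [← hk]
    have h1 : (1 : ℕ) ≤ 2 ^ Nat.totient n := Nat.one_le_two_pow
    obtain ⟨j, hj⟩ := (Nat.modEq_iff_dvd' h1).mp htot.symm
    have h3 : 2 ^ Nat.totient n = 1 + n * j := by omega
    rw [h3, add_smul, one_smul, mul_comm, mul_smul, hnP, smul_zero, add_zero]
  have := (hmono k)
  rw [hback] at this
  exact absurd (lt_of_le_of_lt this.1 this.2) (lt_irrefl _)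

end Dbl

include hX in
/-- two points with unit, congruent x-coordinates differ up to sign by a point of the kernel of
reduction -/
lemma IsXMap.E1_of_congr (hb : v b < 1) {P Q : G} (hP0 : P ≠ 0) (hQ0 : Q ≠ 0) (hP : v (X P) = 1)
    (hQ : v (X Q) = 1) (hne : X P ≠ X Q) (hc : v (X P - X Q) < 1) :
    1 < v (X (P + Q)) ∨ 1 < v (X (P - Q)) := by
  have hprod := hX.prod P Q hP0 hQ0 hne
  have h1 : v ((X P * X Q - b) ^ 2) = 1 := by
    have : v (X P * X Q - b) = 1 := by
      rw [Valuation.map_sub_eq_of_lt_left v (by rw [map_mul, hP, hQ, one_mul]; exact hb), map_mul,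
        hP, hQ, one_mul]
    rw [map_pow, this, one_pow]
  have h3 : v ((X P - X Q) ^ 2) < 1 := by
    rw [map_pow]; exact pow_lt_one₀ zero_le hc two_ne_zero
  by_contra hcon
  push Not at hcon
  have h4 : v (X (P + Q) * X (P - Q) * (X P - X Q) ^ 2) < 1 := by
    rw [map_mul, map_mul]
    exact lt_of_le_of_lt (mul_le_of_le_one_left' (mul_le_one' hcon.1 hcon.2)) h3
  rw [hprod, h1] at h4
  exact lt_irrefl _ h4

section Summary2

variable (ha : v a = 1)

include hX ha in
/-- **Levels of odd torsion points**, without any assumption on `ord b` or on `v 2`. -/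
theorem IsXMap.mult_torsion_level (hb0 : b ≠ 0) (hb : v b < 1) {p : ℕ} (hodd : Odd p)
    {P : G} (hP0 : P ≠ 0) (hpP : p • P = 0) (hP : v (X P) < 1) :
    v b < v (X P) ∧ ∃ k : ℤ, v (X P) ^ p = v b ^ (2 * k) := by
  obtain ⟨m, hbm⟩ := exists_EQ (v := v) hb0
  have hm : 0 < m := hbm.lt_one_iff.mp hb
  have hnotfar : ¬ GE v (X P) m := by
    intro hfar
    have h1 := hX.far_dbl₂ ha hbm hP0 hm hfar
    obtain ⟨j, hj⟩ := hodd
    have h3 := hX.E0_nsmul₂ ha.le hb h1 (j + 1)
    have h4 : (j + 1) • (P + P) = P := by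
      have : (j + 1) • (P + P) = p • P + P := by rw [hj]; module
      rw [this, hpP, zero_add]
    rw [h4] at h3
    exact absurd (h3.resolve_left hP0) (not_le.mpr hP)
  have hx0 : X P ≠ 0 := by
    intro h; apply hnotfar; rw [h]; exact GE_zero
  obtain ⟨c, hc⟩ := exists_EQ (v := v) hx0
  have hc0 : 0 < c := hc.lt_one_iff.mp hP
  have hcm : c < m := by
    by_contra hcon
    exact hnotfar (hc.ge.mono (not_lt.mp hcon))
  refine ⟨(hbm.lt_iff hc).mpr hcm, ?_⟩
  obtain ⟨k, hk⟩ := (hX.lev_nsmul₂ ha hbm hP0 hc hc0 hcm p).1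
  rw [hpP, lev_zero] at hk
  have key : ∃ k' : ℤ, p • c = (2 * k') • m := by
    rcases hk with hk | hk
    · refine ⟨-k, ?_⟩
      have h1 : (p : ℤ) • c = -(k • (m + m)) := by
        have := hk; grind
      rw [← natCast_zsmul, h1]; module
    · refine ⟨k, ?_⟩
      have h1 : (p : ℤ) • c = k • (m + m) := by
        have := hk; grind
      rw [← natCast_zsmul, h1]; module
  obtain ⟨k', hk'⟩ := key
  refine ⟨k', ?_⟩
  have e1 := hc.pow p
  have e2 := hbm.zpow (2 * k')
  rw [← map_pow, ← map_zpow₀, e1, e2, hk']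

end Summary2

end Fermat.Agent.S05lib
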