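import Fermat.Agent.S13.AtTwoPre
import Fermat.Agent.S13.TwoAbs

/-!
# S13, task RAT: the Frey curve has no rational point of order `p`
-/

set_option autoImplicit false

namespace Fermat.Agent.S13lib

open WeierstrassCurve WeierstrassCurve.Affine Fermat.Agent.S05lib Polynomial Fermat.Agent.S13pre

local notation "Kb" => AlgebraicClosure ℚ

section rationality

variable (P : FreyPackage)

/-- the x-coordinate of a Galois-fixed point is rational -/
lemma rat_X_of_fixed (g : (P.freyCurve⁄Kb).Point) (hfix : ∀ σ : Kb ≃ₐ[ℚ] Kb, σ • g = g) :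
    ∃ r : ℚ, Xc (P.freyCurve⁄Kb) 0 g = (r : Kb) := by
  rcases g with _ | ⟨ξ, η, h⟩
  · exact ⟨0, by simp [Xc]⟩
  · have hξ : ∀ σ : Kb ≃ₐ[ℚ] Kb, σ ξ = ξ := by
      intro σ
      have h1 := hfix σ
      rw [Point.algEquiv_smul_def, Point.map_some] at h1
      have h2 := (Point.some.injEq ..).mp h1
      exact h2.1
    have : IsGalois ℚ Kb := Fermat.Agent.FrobExists.isGaloisQb
    obtain ⟨r, hr⟩ := (InfiniteGalois.mem_range_algebraMap_iff_fixed (k := ℚ) ξ).2 hξ
    refine ⟨r, ?_⟩
    rw [Xc_some, sub_zero, ← hr]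
    simp

lemma rat_fixed_nsmul (g : (P.freyCurve⁄Kb).Point) (hfix : ∀ σ : Kb ≃ₐ[ℚ] Kb, σ • g = g) (n : ℕ)
    (σ : Kb ≃ₐ[ℚ] Kb) : σ • (n • g) = n • g := by
  have h1 := hfix σ
  rw [Point.algEquiv_smul_def] at h1 ⊢
  rw [map_nsmul, h1]

end rationality

section arith

/-- the integer arithmetic behind the multiplicative case -/
lemma rat_arith {p : ℕ} (hp : p.Prime) (hp5 : 5 ≤ p) {s j k : ℤ}
    (h : j * p = (s * p - 4) * (2 * k)) (hj0 : 0 < j) (hj : j < s * p - 4) : False := by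
  have hdvd : (p : ℤ) ∣ 8 * k := ⟨2 * k * s - j, by linear_combination h⟩
  have hcop : IsCoprime (p : ℤ) 8 := by
    have h1 : Nat.Coprime p 8 := by
      have : Nat.Coprime p (2 ^ 3) := by
        apply Nat.Coprime.pow_right
        rw [Nat.coprime_primes hp Nat.prime_two]
        omega
      simpa using this
    exact_mod_cast Nat.isCoprime_iff_coprime.mpr h1
  obtain ⟨k', rfl⟩ := hcop.dvd_of_dvd_mul_left hdvd
  have hp0 : (p : ℤ) ≠ 0 := by exact_mod_cast hp.ne_zero
  have h2 : j = (s * p - 4) * (2 * k') := by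
    apply mul_right_cancel₀ hp0
    rw [h]; ring
  have hμ : 0 < s * (p : ℤ) - 4 := hj0.trans hj
  rw [h2] at hj0 hj
  have h3 : 0 < 2 * k' := by
    by_contra hcon
    have : (s * (p : ℤ) - 4) * (2 * k') ≤ 0 := mul_nonpos_of_nonneg_of_nonpos hμ.le (not_lt.mp hcon)
    omega
  have h4 : 2 * k' < 1 := by
    by_contra hcon
    have : (s * (p : ℤ) - 4) * 1 ≤ (s * (p : ℤ) - 4) * (2 * k') :=
      mul_le_mul_of_nonneg_left (not_lt.mp hcon) hμ.le
    omega
  omega

end arith

section local2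

variable (P : FreyPackage) {A : ValuationSubring Kb} (hA : A.LiesOverPrime 2)

lemma rat_a_odd : ¬ ((2 : ℕ) : ℤ) ∣ P.a := by
  intro h
  have h1 : ((P.a : ℤ) : ZMod 4) = 3 := P.ha4
  obtain ⟨c, hc⟩ := h
  rw [hc] at h1
  push_cast at h1
  have : ∀ x : ZMod 4, 2 * x ≠ 3 := by decide
  exact this _ h1

include hA in
/-- the valuation of `bInt` is `v(2)^(s p - 4)` -/
lemma rat_val_bInt : ∃ s : ℤ, A.valuation (bInt P : Kb) = A.valuation (2 : Kb) ^ (s * P.p - 4) := by
  obtain ⟨s, hs⟩ := val_int_eq_pow (L := Kb) hA Nat.prime_two P.hb0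
  refine ⟨s, ?_⟩
  have h20 : A.valuation (2 : Kb) ≠ 0 := by
    rw [Valuation.ne_zero_iff]; norm_num
  have ha : A.valuation (P.a : Kb) = 1 := val_int_eq_one hA Nat.prime_two (rat_a_odd P)
  have h16 : A.valuation (16 : Kb) = A.valuation (2 : Kb) ^ 4 := by
    rw [← map_pow]; norm_num
  rw [Nat.cast_ofNat] at hs
  rw [bInt_cast, map_div₀, Valuation.map_neg, map_mul, map_pow, map_pow, ha, one_pow, one_mul, hs,
    h16, zpow_sub₀ h20, ← pow_mul]
  congr 1

end local2

/-- a point killed by `p` and by an `n` prime to `p` is zero -/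
lemma rat_eq_zero_of_coprime {G : Type*} [AddCommGroup G] {x : G} {p n : ℕ} (hpn : Nat.Coprime n p)
    (hp : p • x = 0) (hn : n • x = 0) : x = 0 := by
  have h1 : ((Nat.gcd n p : ℕ) : ℤ) • x = 0 := by
    rw [Nat.gcd_eq_gcd_ab, add_smul, mul_smul, mul_smul, smul_comm, natCast_zsmul, hn,
      smul_zero, zero_add, smul_comm, natCast_zsmul, hp, smul_zero]
  rw [hpn] at h1
  simpa using h1

/-- **Task RAT.** The Frey curve has no rational point of order `p`. -/
theorem frey_no_rational_torsion (P : FreyPackage) (x : (P.freyCurve⁄Kb).Point) (hx0 : x ≠ 0)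
    (hx : P.p • x = 0) (hfix : ∀ σ : Kb ≃ₐ[ℚ] Kb, σ • x = x) : False := by
  obtain ⟨A, hA⟩ := Fermat.Agent.FrobExists.exists_liesOverPrime 2 Nat.prime_two
  have hX := frey_isXMap P
  set X := Xc (P.freyCurve⁄Kb) 0 with hXdef
  set v := A.valuation with hv
  have hva : v (aInt P : Kb) = 1 := pre_v_a P hA
  have hvb : v (bInt P : Kb) < 1 := pre_v_b P hA
  have hv2 : v (2 : Kb) < 1 := pre_v_two hA
  have hv20 : 0 < v (2 : Kb) := by
    rw [zero_lt_iff, Valuation.ne_zero_iff]; norm_num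
  have hp5 := P.hp5
  have hint : v (X x) ≤ 1 := tors_integral P hA hx0 hx
  obtain ⟨r, hr⟩ : ∃ r : ℚ, X x = (r : Kb) := rat_X_of_fixed P x hfix
  rcases lt_or_eq_of_le hint with hlt | heq
  · -- multiplicative case
    obtain ⟨hbx, k, hk⟩ := hX.mult_torsion_level hva (bInt_cast_ne_zero P) hvb P.hp_odd hx0 hx hlt
    have hr0 : r ≠ 0 := by
      rintro rfl
      rw [hr, Rat.cast_zero, map_zero] at hbx
      exact not_lt_of_ge zero_le hbx
    obtain ⟨j, hj⟩ : ∃ j : ℤ, v (r : Kb) = v ((2 : ℕ) : Kb) ^ j :=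
      val_rat_eq_zpow (L := Kb) hA Nat.prime_two hr0
    obtain ⟨s, hs⟩ : ∃ s : ℤ, v (bInt P : Kb) = v (2 : Kb) ^ (s * P.p - 4) := rat_val_bInt P hA
    rw [Nat.cast_ofNat] at hj
    rw [hr, hj] at hk hbx hlt
    rw [hs] at hk hbx
    rw [← zpow_natCast, ← zpow_mul, ← zpow_mul] at hk
    have h1 := zpow_right_injective₀ hv20 hv2.ne hk
    have h2 : j < s * P.p - 4 := (zpow_lt_zpow_iff_right_of_lt_one₀ hv20 hv2).mp hbx
    have h3 : 0 < j := by
      rw [← zpow_zero (v (2 : Kb))] at hlt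
      exact (zpow_lt_zpow_iff_right_of_lt_one₀ hv20 hv2).mp hlt
    exact rat_arith P.pp hp5 h1 h3 h2
  · -- identity component
    have h2x0 : x + x ≠ 0 := by
      intro h
      apply hx0
      refine rat_eq_zero_of_coprime (n := 2) ?_ hx (by rw [two_nsmul, h])
      exact Nat.coprime_two_left.mpr P.hp_odd
    have h3x0 : (x + x) + x ≠ 0 := by
      intro h
      apply hx0
      refine rat_eq_zero_of_coprime (n := 3) ?_ hx (by rw [← h]; module)
      rw [Nat.coprime_primes Nat.prime_three P.pp]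
      omega
    have h2t : P.p • (x + x) = 0 := by rw [nsmul_add, hx, add_zero]
    have h3t : P.p • ((x + x) + x) = 0 := by rw [nsmul_add, h2t, hx, add_zero]
    have h2E := (hX.E0_dbl₂ hva.le hvb hx0 heq.ge).resolve_left h2x0
    have h2v : v (X (x + x)) = 1 := le_antisymm (tors_integral P hA h2x0 h2t) h2E
    obtain ⟨r2, hr2⟩ : ∃ r : ℚ, X (x + x) = (r : Kb) := rat_X_of_fixed P (x + x) (by
      intro σ
      have := rat_fixed_nsmul P x hfix 2 σ
      rwa [two_nsmul] at this)
    have hc1 : v (X x - 1) < 1 := by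
      rw [hr]
      refine (val_rat_residue hA (r := r) ?_).resolve_left ?_
      · rw [← hr]; exact hint
      · rw [← hr, heq]; exact lt_irrefl _
    have hc2 : v (X (x + x) - 1) < 1 := by
      rw [hr2]
      refine (val_rat_residue hA (r := r2) ?_).resolve_left ?_
      · rw [← hr2]; exact h2v.le
      · rw [← hr2, h2v]; exact lt_irrefl _
    have hc : v (X (x + x) - X x) < 1 := by
      have : X (x + x) - X x = (X (x + x) - 1) - (X x - 1) := by ring
      rw [this]
      exact lt_of_le_of_lt (v.map_sub _ _) (max_lt hc2 hc1)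
    have hne : X (x + x) ≠ X x := by
      intro h
      rcases hX.inj _ _ h2x0 hx0 h with h | h
      · exact hx0 (by simpa using h)
      · exact h3x0 (by rw [h]; simp)
    rcases hX.E1_of_congr hvb h2x0 hx0 h2v heq hne hc with h | h
    · exact absurd (tors_integral P hA h3x0 h3t) (not_le.mpr h)
    · rw [add_sub_cancel_right, heq] at h
      exact lt_irrefl _ h

end Fermat.Agent.S13lib
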