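import Mathlib

/-!
# S13, task BR: the two branches at a node (valid in every residue characteristic)
-/

set_option autoImplicit false

namespace Fermat.Agent.S13lib

open WeierstrassCurve WeierstrassCurve.Affine

variable {K Γ : Type*} [Field K] [DecidableEq K] [LinearOrderedCommGroupWithZero Γ]
variable {v : Valuation K Γ} {W : WeierstrassCurve.Affine K}

lemma br_mul_lt {a b c d : Γ} (h1 : a ≤ c) (h2 : b < d) (hc : 0 < c) : a * b < c * d :=
  lt_of_le_of_lt (mul_le_mul_left h1 b) (mul_lt_mul_of_pos_left h2 hc)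

/-- the product of the two branch functions -/
lemma branch_prod (h3 : W.a₃ = 0) (h6 : W.a₆ = 0) {α α' : K} (hsum : α + α' = -W.a₁)
    (hprod : α * α' = -W.a₂) {x y : K} (h : W.Equation x y) :
    (y - α * x) * (y - α' * x) = x * (x ^ 2 + W.a₄) := by
  have := (equation_iff ..).mp h
  rw [h3, h6] at this
  linear_combination this - x * y * hsum + x ^ 2 * hprod

/-- A point close to the node `(0,0)` of `y² + a₁xy = x³ + a₂x² + a₄x` (but not too close) lies on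
exactly one of the two branches `y = αx`, `y = α'x`. -/
theorem branch_dichotomy (h3 : W.a₃ = 0) (h6 : W.a₆ = 0) {α α' : K} (hsum : α + α' = -W.a₁)
    (hprod : α * α' = -W.a₂) (hunit : v (α - α') = 1) {x y : K} (h : W.Equation x y)
    (hx1 : v x < 1) (hx4 : v W.a₄ < v x) :
    (v (y - α * x) < v x ∧ v (y - α' * x) = v x) ∨
      (v (y - α' * x) < v x ∧ v (y - α * x) = v x) := by
  have hpos : 0 < v x := lt_of_le_of_lt zero_le hx4
  have hP := branch_prod h3 h6 hsum hprod h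
  have h1 : v (x ^ 2 + W.a₄) < v x := by
    apply v.map_add_lt _ hx4
    rw [map_pow, pow_two]
    calc v x * v x < v x * 1 := mul_lt_mul_of_pos_left hx1 hpos
      _ = v x := mul_one _
  have h2 : v (y - α * x) * v (y - α' * x) < v x * v x := by
    rw [← map_mul, hP, map_mul]
    exact mul_lt_mul_of_pos_left h1 hpos
  have hd : v ((α - α') * x) = v x := by rw [map_mul, hunit, one_mul]
  by_cases hf : v (y - α * x) < v x
  · left
    refine ⟨hf, ?_⟩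
    have : y - α' * x = (α - α') * x + (y - α * x) := by ring
    rw [this, v.map_add_eq_of_lt_left (by rw [hd]; exact hf), hd]
  · right
    have hf' : v (y - α' * x) < v x := by
      by_contra hc
      exact absurd h2 (not_lt.mpr (mul_le_mul' (not_lt.mp hf) (not_lt.mp hc)))
    refine ⟨hf', ?_⟩
    have : y - α * x = -((α - α') * x) + (y - α' * x) := by ring
    rw [this, v.map_add_eq_of_lt_left (by rw [Valuation.map_neg, hd]; exact hf'),
      Valuation.map_neg, hd]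

/-- the chord through two points on the branch `y = αx` has slope `≡ α` (asymmetric version) -/
lemma slope_sub_lt_aux (h3 : W.a₃ = 0) (h6 : W.a₆ = 0) {α α' : K} (hsum : α + α' = -W.a₁)
    (hprod : α * α' = -W.a₂) (hunit : v (α - α') = 1)
    {x₁ y₁ x₂ y₂ : K} (h₁ : W.Equation x₁ y₁) (h₂ : W.Equation x₂ y₂) (hne : x₁ ≠ x₂)
    (hx₁ : v x₁ < 1) (hx₂ : v x₂ < 1) (hx₂' : v W.a₄ < v x₂) (hle : v x₁ ≤ v x₂)
    (hb₁ : v (y₁ - α * x₁) < v x₁) (hb₂ : v (y₂ - α * x₂) < v x₂) :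
    v ((y₁ - y₂) / (x₁ - x₂) - α) < 1 := by
  have hpos : 0 < v x₂ := lt_of_le_of_lt zero_le hx₂'
  have hP₁ := branch_prod h3 h6 hsum hprod h₁
  have hP₂ := branch_prod h3 h6 hsum hprod h₂
  set f₁ := y₁ - α * x₁ with hf₁
  set f₂ := y₂ - α * x₂ with hf₂
  set c := α - α' with hc
  have e₁ : y₁ - α' * x₁ = f₁ + c * x₁ := by rw [hf₁, hc]; ring
  have e₂ : y₂ - α' * x₂ = f₂ + c * x₂ := by rw [hf₂, hc]; ring
  rw [e₁] at hP₁
  rw [e₂] at hP₂
  have key : (f₂ - f₁) * (f₁ + f₂ + c * x₂)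
      = (x₂ - x₁) * (x₂ ^ 2 + x₁ * x₂ + x₁ ^ 2 + W.a₄ - c * f₁) := by
    linear_combination hP₂ - hP₁
  have hcx : v (c * x₂) = v x₂ := by rw [map_mul, hunit, one_mul]
  have hf₁lt : v f₁ < v x₂ := lt_of_lt_of_le hb₁ hle
  have hA : v (f₁ + f₂ + c * x₂) = v x₂ := by
    rw [v.map_add_eq_of_lt_right (by rw [hcx]; exact v.map_add_lt hf₁lt hb₂), hcx]
  have hB : v (x₂ ^ 2 + x₁ * x₂ + x₁ ^ 2 + W.a₄ - c * f₁) < v x₂ := by
    apply v.map_sub_lt (v.map_add_lt (v.map_add_lt (v.map_add_lt _ _) _) hx₂') _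
    · rw [map_pow, pow_two]
      calc v x₂ * v x₂ < v x₂ * 1 := mul_lt_mul_of_pos_left hx₂ hpos
        _ = v x₂ := mul_one _
    · rw [map_mul]
      calc v x₁ * v x₂ < 1 * v x₂ := mul_lt_mul_of_pos_right hx₁ hpos
        _ = v x₂ := one_mul _
    · rw [map_pow, pow_two]
      calc v x₁ * v x₁ ≤ v x₁ * v x₂ := mul_le_mul_right hle _
        _ < 1 * v x₂ := mul_lt_mul_of_pos_right hx₁ hpos
        _ = v x₂ := one_mul _
    · rw [map_mul, hunit, one_mul]; exact hf₁lt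
  have hd0 : x₂ - x₁ ≠ 0 := sub_ne_zero.mpr hne.symm
  have hd0' : x₁ - x₂ ≠ 0 := sub_ne_zero.mpr hne
  have hdpos : 0 < v (x₂ - x₁) := zero_lt_iff.mpr (v.ne_zero_iff.mpr hd0)
  have hlt : v (f₂ - f₁) < v (x₂ - x₁) := by
    have h5 := congrArg v key
    rw [map_mul, map_mul, hA] at h5
    have h6 : v (f₂ - f₁) * v x₂ < v (x₂ - x₁) * v x₂ := by
      rw [h5]; exact mul_lt_mul_of_pos_left hB hdpos
    exact lt_of_mul_lt_mul_right h6 zero_le
  have e3 : (y₁ - y₂) / (x₁ - x₂) - α = (f₂ - f₁) / (x₂ - x₁) := by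
    rw [hf₁, hf₂]
    field_simp
    ring
  rw [e3, map_div₀]
  exact (div_lt_one₀ hdpos).mpr hlt

/-- the chord through two points on the branch `y = αx` has slope `≡ α` -/
lemma slope_sub_lt (h3 : W.a₃ = 0) (h6 : W.a₆ = 0) {α α' : K} (hsum : α + α' = -W.a₁)
    (hprod : α * α' = -W.a₂) (hunit : v (α - α') = 1)
    {x₁ y₁ x₂ y₂ : K} (h₁ : W.Equation x₁ y₁) (h₂ : W.Equation x₂ y₂) (hne : x₁ ≠ x₂)
    (hx₁ : v x₁ < 1) (hx₁' : v W.a₄ < v x₁) (hx₂ : v x₂ < 1) (hx₂' : v W.a₄ < v x₂)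
    (hb₁ : v (y₁ - α * x₁) < v x₁) (hb₂ : v (y₂ - α * x₂) < v x₂) :
    v ((y₁ - y₂) / (x₁ - x₂) - α) < 1 := by
  rcases le_total (v x₁) (v x₂) with hle | hle
  · exact slope_sub_lt_aux h3 h6 hsum hprod hunit h₁ h₂ hne hx₁ hx₂ hx₂' hle hb₁ hb₂
  · have := slope_sub_lt_aux h3 h6 hsum hprod hunit h₂ h₁ hne.symm hx₂ hx₁ hx₁' hle hb₂ hb₁
    have e : (y₁ - y₂) / (x₁ - x₂) = (y₂ - y₁) / (x₂ - x₁) := by
      rw [← neg_sub y₂ y₁, ← neg_sub x₂ x₁, neg_div_neg_eq]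
    rw [e]
    exact this

/-- The sum of two points (with distinct x-coordinates) on the same branch is again close to the
node. -/
theorem same_branch_add (h3 : W.a₃ = 0) (h6 : W.a₆ = 0) {α α' : K} (hsum : α + α' = -W.a₁)
    (hprod : α * α' = -W.a₂) (hunit : v (α - α') = 1) (hα : v α ≤ 1) (hα' : v α' ≤ 1)
    {x₁ y₁ x₂ y₂ : K} (h₁ : W.Nonsingular x₁ y₁) (h₂ : W.Nonsingular x₂ y₂) (hne : x₁ ≠ x₂)
    (hx₁ : v x₁ < 1) (hx₁' : v W.a₄ < v x₁) (hx₂ : v x₂ < 1) (hx₂' : v W.a₄ < v x₂)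
    (hb₁ : v (y₁ - α * x₁) < v x₁) (hb₂ : v (y₂ - α * x₂) < v x₂) :
    ∃ (x₃ y₃ : K) (h₃ : W.Nonsingular x₃ y₃),
      Point.some x₁ y₁ h₁ + Point.some x₂ y₂ h₂ = Point.some x₃ y₃ h₃ ∧ v x₃ < 1 := by
  refine ⟨_, _, _, Point.add_of_X_ne hne, ?_⟩
  rw [slope_of_X_ne hne, addX]
  have hl := slope_sub_lt h3 h6 hsum hprod hunit h₁.1 h₂.1 hne hx₁ hx₁' hx₂ hx₂' hb₁ hb₂
  set l := (y₁ - y₂) / (x₁ - x₂)
  have hl' : v (l - α') ≤ 1 := by
    have : l - α' = (l - α) + (α - α') := by ring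
    rw [this]
    exact v.map_add_le hl.le hunit.le
  have e : l ^ 2 + W.a₁ * l - W.a₂ - x₁ - x₂ = (l - α) * (l - α') - x₁ - x₂ := by
    linear_combination l * hsum - hprod
  rw [e]
  apply v.map_sub_lt (v.map_sub_lt _ hx₁) hx₂
  rw [map_mul]
  calc v (l - α) * v (l - α') ≤ v (l - α) * 1 := mul_le_mul_right hl' _
    _ = v (l - α) := mul_one _
    _ < 1 := hl

end Fermat.Agent.S13lib
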