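import Fermat.Agent.S13.Basic
import Fermat.Agent.S13.TwoAbs
import Fermat.Agent.S13.Branch

/-!
# S13: inertia at 2 acts unipotently on the `p`-torsion of the Frey curve
-/

set_option autoImplicit false

namespace Fermat.Agent.S13lib

open WeierstrassCurve WeierstrassCurve.Affine Fermat.Agent.S05lib

local notation "Kb" => AlgebraicClosure ℚ

/-- every element of `ℚ̄` is a periodic point of every automorphism -/
lemma exists_pow_fix (σ : Kb ≃ₐ[ℚ] Kb) (x : Kb) : ∃ n : ℕ, 0 < n ∧ (σ ^ n) x = x := by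
  have hx : IsIntegral ℚ x := (AlgebraicClosure.isAlgebraic ℚ).isIntegral.isIntegral x
  have hroot : ∀ k : ℕ, (σ ^ k) x ∈ (minpoly ℚ x).rootSet Kb := by
    intro k
    rw [Polynomial.mem_rootSet]
    refine ⟨minpoly.ne_zero hx, ?_⟩
    have := Polynomial.aeval_algHom_apply ((σ ^ k : Kb ≃ₐ[ℚ] Kb) : Kb →ₐ[ℚ] Kb) x (minpoly ℚ x)
    rw [minpoly.aeval, map_zero] at this
    exact this
  have : Finite ((minpoly ℚ x).rootSet Kb) := (Polynomial.rootSet_finite _ _).to_subtype
  obtain ⟨i, j, hij, hf⟩ := Finite.exists_ne_map_eq_of_infinite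
    (fun k : ℕ => (⟨(σ ^ k) x, hroot k⟩ : (minpoly ℚ x).rootSet Kb))
  have hf' : (σ ^ i) x = (σ ^ j) x := congrArg Subtype.val hf
  have key : ∀ i j : ℕ, i < j → (σ ^ i) x = (σ ^ j) x → ∃ n : ℕ, 0 < n ∧ (σ ^ n) x = x := by
    intro i j hlt h
    refine ⟨j - i, by omega, ?_⟩
    have h1 : σ ^ j = σ ^ i * σ ^ (j - i) := by rw [← pow_add]; congr 1; omega
    rw [h1, AlgEquiv.mul_apply] at h
    exact ((σ ^ i).injective h).symm
  rcases lt_or_gt_of_ne hij with h | h
  · exact key i j h hf'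
  · exact key j i h hf'.symm

/-- elements of the decomposition group preserve the valuation -/
lemma val_sigma_eq (A : ValuationSubring Kb) (σ : Kb ≃ₐ[ℚ] Kb)
    (hσ1 : ∀ x, A.valuation (σ x) ≤ 1 ↔ A.valuation x ≤ 1) (x : Kb) :
    A.valuation (σ x) = A.valuation x := by
  set v := A.valuation with hv
  have hlt : ∀ y, v (σ y) < 1 ↔ v y < 1 := by
    intro y
    by_cases hy : y = 0
    · simp [hy]
    have hy' : σ y ≠ 0 := by simpa using hy
    have h1 := hσ1 y⁻¹
    rw [map_inv₀, map_inv₀, map_inv₀, inv_le_one₀ (zero_lt_iff.mpr ((v.ne_zero_iff).mpr hy')),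
      inv_le_one₀ (zero_lt_iff.mpr ((v.ne_zero_iff).mpr hy))] at h1
    rw [← not_le, ← not_le, h1]
  have hord : ∀ a b, b ≠ 0 → (v (σ a) < v (σ b) ↔ v a < v b) := by
    intro a b hb
    have hb' : σ b ≠ 0 := by simpa using hb
    have h1 := hlt (a / b)
    rw [map_div₀, map_div₀, map_div₀, div_lt_one₀ (zero_lt_iff.mpr ((v.ne_zero_iff).mpr hb')),
      div_lt_one₀ (zero_lt_iff.mpr ((v.ne_zero_iff).mpr hb))] at h1
    exact h1
  have aux : ∀ z : Kb, z ≠ 0 → ¬ v (σ z) < v z := by
    intro z hz hcon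
    have hz' : ∀ k : ℕ, (σ ^ k) z ≠ 0 := fun k => (map_ne_zero (σ ^ k)).mpr hz
    have hstep : ∀ k : ℕ, v ((σ ^ (k + 1)) z) < v ((σ ^ k) z) := by
      intro k
      induction k with
      | zero => simpa using hcon
      | succ k ih =>
        have e1 : (σ ^ (k + 1 + 1)) z = σ ((σ ^ (k + 1)) z) := by
          rw [pow_succ' σ (k + 1), AlgEquiv.mul_apply]
        have e2 : (σ ^ (k + 1)) z = σ ((σ ^ k) z) := by
          rw [pow_succ' σ k, AlgEquiv.mul_apply]
        rw [e1]
        conv_rhs => rw [e2]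
        exact (hord _ _ (hz' k)).mpr ih
    have hall : ∀ k : ℕ, v ((σ ^ (k + 1)) z) < v z := by
      intro k
      induction k with
      | zero => simpa using hcon
      | succ k ih => exact (hstep (k + 1)).trans ih
    obtain ⟨n, hn, hfix⟩ := exists_pow_fix σ z
    obtain ⟨k, rfl⟩ : ∃ k, n = k + 1 := Nat.exists_eq_succ_of_ne_zero hn.ne'
    have := hall k
    rw [hfix] at this
    exact lt_irrefl _ this
  by_cases hx : x = 0
  · simp [hx]
  have hx' : σ x ≠ 0 := by simpa using hx
  refine le_antisymm ?_ (not_lt.mp (aux x hx))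
  have h1 := aux x⁻¹ (inv_ne_zero hx)
  rw [map_inv₀, map_inv₀, map_inv₀,
    inv_lt_inv₀ (zero_lt_iff.mpr ((v.ne_zero_iff).mpr hx')) (zero_lt_iff.mpr ((v.ne_zero_iff).mpr hx))]
    at h1
  exact not_lt.mp h1

section Arith

variable (P : FreyPackage)

lemma a_odd : ¬ (2 : ℤ) ∣ P.a := by
  intro h
  have h4 : (P.a : ZMod 4) = ((3 : ℤ) : ZMod 4) := by rw [P.ha4]; rfl
  rw [ZMod.intCast_eq_intCast_iff_dvd_sub] at h4
  push_cast at h4
  omega

lemma aInt_odd : ¬ (2 : ℤ) ∣ aInt P := by
  intro h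
  have hb : (2 : ℤ) ∣ P.b ^ P.p := dvd_pow (two_dvd_b P) P.hp0
  have ha : (2 : ℤ) ∣ P.a ^ P.p := by
    have : P.a ^ P.p = P.b ^ P.p - aInt P := by unfold aInt; ring
    rw [this]; exact dvd_sub hb h
  exact a_odd P (Int.prime_two.dvd_of_dvd_pow ha)

lemma four_dvd_aInt_sub_one : (4 : ℤ) ∣ aInt P - 1 := by
  apply (ZMod.intCast_zmod_eq_zero_iff_dvd (aInt P - 1) 4).mp
  have hb : ((P.b ^ P.p : ℤ) : ZMod 4) = 0 := by
    rw [ZMod.intCast_zmod_eq_zero_iff_dvd]
    exact Dvd.dvd.trans (by norm_num) (thirtytwo_dvd P)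
  have ha : ((P.a ^ P.p : ℤ) : ZMod 4) = -1 := by
    push_cast
    rw [P.ha4]
    have : (3 : ZMod 4) = -1 := by decide
    rw [this, P.hp_odd.neg_one_pow]
  unfold aInt
  push_cast at hb ha ⊢
  rw [hb, ha]
  decide

local notation "Wk" => (FreyPackage.freyCurve P)⁄Kb

lemma frey_a₄' : (Wk).a₄ = (bInt P : Kb) := by
  rw [frey_a₄, bInt_cast]; ring

lemma frey_a₂' : ∃ n : ℤ, (Wk).a₂ = (n : Kb) ∧ 4 * (n : Kb) = (aInt P : Kb) - 1 := by
  obtain ⟨n, hn⟩ := four_dvd_aInt_sub_one P
  have h1 : 4 * (n : Kb) = (aInt P : Kb) - 1 := by exact_mod_cast congrArg (Int.cast : ℤ → Kb) hn.symm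
  refine ⟨n, ?_, h1⟩
  rw [frey_a₂, div_eq_iff (by norm_num)]
  have : (aInt P : Kb) = (P.b : Kb) ^ P.p - (P.a : Kb) ^ P.p := by unfold aInt; push_cast; ring
  rw [this] at h1
  linear_combination -h1

lemma frey_integralCoeffs (A : ValuationSubring Kb) : IntegralCoeffs Wk A.valuation := by
  obtain ⟨n, hn, -⟩ := frey_a₂' P
  refine ⟨by rw [frey_a₁, map_one], by rw [hn]; exact val_int_le_one A n,
    by rw [frey_a₃, map_zero]; exact zero_le, by rw [frey_a₄']; exact val_int_le_one A _,
    by rw [frey_a₆, map_zero]; exact zero_le⟩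

end Arith

section Main

variable {P : FreyPackage}

local notation "Wk" => (FreyPackage.freyCurve P)⁄Kb

lemma val_two_lt {A : ValuationSubring Kb} (hA : A.LiesOverPrime 2) : A.valuation (2 : Kb) < 1 := by
  simpa using val_q_lt_one hA

lemma val_aInt {A : ValuationSubring Kb} (hA : A.LiesOverPrime 2) :
    A.valuation (aInt P : Kb) = 1 :=
  val_int_eq_one hA Nat.prime_two (by simpa using aInt_odd P)

lemma val_bInt {A : ValuationSubring Kb} (hA : A.LiesOverPrime 2) :
    A.valuation (bInt P : Kb) < 1 :=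
  val_int_lt_one hA (by simpa using two_dvd_bInt P)

/-- the "identity component" at 2 is closed under addition -/
theorem frey_E0_add (A : ValuationSubring Kb) (hA : A.LiesOverPrime 2)
    {x y : (P.freyCurve⁄Kb).Point} (hx : E0 (Xc Wk 0) A.valuation x)
    (hy : E0 (Xc Wk 0) A.valuation y) : E0 (Xc Wk 0) A.valuation (x + y) :=
  (frey_isXMap P).E0_add₂ (val_aInt hA).le (val_bInt hA) hx hy

/-- a root of a monic quadratic polynomial with integral coefficients is integral -/
lemma val_root_le_one {Γ : Type*} [LinearOrderedCommGroupWithZero Γ] {v : Valuation Kb Γ}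
    {α α' : Kb} (hs : v (α + α') ≤ 1) (hp : v (α * α') ≤ 1) : v α ≤ 1 := by
  by_contra hcon
  have h1 : 1 < v α := not_le.mp hcon
  have e : α ^ 2 = (α + α') * α - α * α' := by ring
  have h3 : v (α ^ 2) ≤ v α := by
    rw [e]
    refine (v.map_sub _ _).trans (max_le ?_ (hp.trans h1.le))
    rw [map_mul]; exact mul_le_of_le_one_left' hs
  rw [map_pow, pow_two] at h3
  have h4 : v α * 1 < v α * v α := mul_lt_mul_of_pos_left h1 (zero_lt_one.trans h1)
  rw [mul_one] at h4
  exact absurd h3 (not_le.mpr h4)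

/-- **Inertia at 2** moves `p`-torsion points into the identity component and fixes the `p`-torsion
points of the identity component. -/
theorem frey_inertia_two (A : ValuationSubring Kb) (hA : A.LiesOverPrime 2) (σ : Kb ≃ₐ[ℚ] Kb)
    (hσ : σ ∈ A.inertiaSubgroupIn ℚ) (x : (P.freyCurve⁄Kb).Point) (hx : P.p • x = 0) :
    E0 (Xc Wk 0) A.valuation (σ • x - x) ∧ (E0 (Xc Wk 0) A.valuation x → σ • x = x) := by
  obtain ⟨hσ1, hσ2⟩ := inertia_props A σ hσ
  have hσv := val_sigma_eq A σ hσ1
  set v := A.valuation with hv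
  have hX := frey_isXMap P
  have hva : v (aInt P : Kb) = 1 := val_aInt hA
  have hvb : v (bInt P : Kb) < 1 := val_bInt hA
  have h2 : v (2 : Kb) < 1 := val_two_lt hA
  have h20 : (2 : Kb) ≠ 0 := two_ne_zero
  have hint : ∀ y : (P.freyCurve⁄Kb).Point, y ≠ 0 → P.p • y = 0 → v (Xc Wk 0 y) ≤ 1 :=
    fun y hy0 hy => hX.integral_of_odd_torsion hva.le hvb.le h2 h20 hy0 P.hp_odd hy
  have a1 : (Wk).a₁ = 1 := frey_a₁ P
  have a3 : (Wk).a₃ = 0 := frey_a₃ P
  have a6 : (Wk).a₆ = 0 := frey_a₆ P
  have a4 : (Wk).a₄ = (bInt P : Kb) := frey_a₄' P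
  rw [Point.algEquiv_smul_def]
  have hpact : P.p • (Point.map (W' := P.freyCurve) σ.toAlgHom) x = 0 := by
    rw [← map_nsmul, hx, map_zero]
  rcases x with _ | ⟨ξ, η, h⟩
  · have h0 : (Point.zero : (P.freyCurve⁄Kb).Point) = 0 := rfl
    rw [h0, map_zero, sub_self]
    exact ⟨Or.inl rfl, fun _ => rfl⟩
  have hx0 : (Point.some ξ η h : (P.freyCurve⁄Kb).Point) ≠ 0 := Point.some_ne_zero h
  obtain ⟨h', hh'⟩ : ∃ h', (Point.map (W' := P.freyCurve) σ.toAlgHom) (.some ξ η h)
      = .some (σ ξ) (σ η) h' := ⟨_, Point.map_some (W' := P.freyCurve) σ.toAlgHom h⟩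
  rw [hh'] at hpact ⊢
  have hx'0 : (Point.some (σ ξ) (σ η) h' : (P.freyCurve⁄Kb).Point) ≠ 0 := Point.some_ne_zero h'
  have hξint : v ξ ≤ 1 := by simpa using hint _ hx0 hx
  have hneg : (Point.some (σ ξ) (σ η) h' : (P.freyCurve⁄Kb).Point) = -Point.some ξ η h →
      σ η = -η - ξ := by
    intro h1
    rw [Point.neg_some] at h1
    simp only [Point.some.injEq] at h1
    rw [h1.2, negY, a1, a3]; ring
  rcases lt_or_eq_of_le hξint with hlt | heq
  · -- the point is close to the node
    obtain ⟨hbξ, -⟩ := hX.mult_torsion_level hva (bInt_cast_ne_zero P) hvb P.hp_odd hx0 hx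
      (by simpa using hlt)
    simp only [Xc_some, sub_zero] at hbξ
    refine ⟨?_, fun hE0 => absurd (hE0.resolve_left hx0) (not_le.mpr (by simpa using hlt))⟩
    obtain ⟨s, hs⟩ := IsAlgClosed.exists_pow_nat_eq (aInt P : Kb) (n := 2) (by norm_num)
    have hvs : v s = 1 := by
      have := congrArg v hs
      rw [map_pow, hva] at this
      exact (pow_eq_one_iff_of_nonneg zero_le (by norm_num)).mp this
    obtain ⟨n, hn, hn4⟩ := frey_a₂' P
    have hvn : v (n : Kb) ≤ 1 := val_int_le_one A n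
    -- the key argument, for a branch `β`
    have key : ∀ β β' : Kb, β + β' = -(Wk).a₁ → β * β' = -(Wk).a₂ → v (β - β') = 1 →
        σ β = β → v (η - β * ξ) < v ξ → v (η - β' * ξ) = v ξ →
        E0 (Xc Wk 0) v (Point.some (σ ξ) (σ η) h' + Point.some ξ η h) →
        E0 (Xc Wk 0) v (Point.some (σ ξ) (σ η) h' - Point.some ξ η h) := by
      intro β β' hsum hprod hunit hσβ hb₁ hb₁' hplus
      have hβ : v β ≤ 1 := val_root_le_one (α' := β') (by rw [hsum, a1]; simp)
        (by rw [hprod, hn, Valuation.map_neg]; exact hvn)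
      have hβ' : v β' ≤ 1 := val_root_le_one (α' := β) (by rw [add_comm, hsum, a1]; simp)
        (by rw [mul_comm, hprod, hn, Valuation.map_neg]; exact hvn)
      have hb₂ : v (σ η - β * σ ξ) < v (σ ξ) := by
        have : σ η - β * σ ξ = σ (η - β * ξ) := by rw [map_sub, map_mul, hσβ]
        rw [this, hσv, hσv]; exact hb₁
      by_cases hEq : σ ξ = ξ
      · rcases hX.inj _ _ hx'0 hx0 (by simp [hEq]) with h1 | h1
        · rw [h1, sub_self]; exact Or.inl rfl
        · exfalso
          have h3 := hneg h1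
          have : σ η - β * σ ξ = -(η - β' * ξ) := by
            rw [h3, hEq]
            rw [a1] at hsum
            linear_combination (-ξ) * hsum
          rw [this, Valuation.map_neg, hb₁', hσv] at hb₂
          exact lt_irrefl _ hb₂
      · exfalso
        obtain ⟨x₃, y₃, h₃, hadd, hx₃⟩ := same_branch_add (v := v) a3 a6 hsum hprod hunit hβ hβ' h' h
          hEq (by rw [hσv]; exact hlt) (by rw [hσv, a4]; exact hbξ) hlt (by rw [a4]; exact hbξ)
          hb₂ hb₁
        rw [hadd] at hplus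
        rcases hplus with h1 | h1
        · exact Point.some_ne_zero h₃ h1
        · simp only [Xc_some, sub_zero] at h1
          exact absurd h1 (not_le.mpr hx₃)
    have hsum : (s - 1) / 2 + (-s - 1) / 2 = -(Wk).a₁ := by rw [a1]; ring
    have hprod : (s - 1) / 2 * ((-s - 1) / 2) = -(Wk).a₂ := by
      rw [hn]; linear_combination (-1 / 4 : Kb) * hs + (1 / 4 : Kb) * hn4
    have hunit : v ((s - 1) / 2 - (-s - 1) / 2) = 1 := by
      have : (s - 1) / 2 - (-s - 1) / 2 = s := by ring
      rw [this, hvs]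
    have hα : v ((s - 1) / 2) ≤ 1 := val_root_le_one (α' := (-s - 1) / 2) (by rw [hsum, a1]; simp)
      (by rw [hprod, hn, Valuation.map_neg]; exact hvn)
    have hσs : σ s = s := by
      have hsq : σ s ^ 2 = s ^ 2 := by rw [← map_pow, hs, map_intCast]
      rcases sq_eq_sq_iff_eq_or_eq_neg.mp hsq with h1 | h1
      · exact h1
      · exfalso
        have h3 := hσ2 _ hα
        have : σ ((s - 1) / 2) - (s - 1) / 2 = -s := by
          simp only [map_div₀, map_sub, map_one, map_ofNat, h1]; ring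
        rw [this, Valuation.map_neg, hvs] at h3
        exact lt_irrefl _ h3
    have hσα : σ ((s - 1) / 2) = (s - 1) / 2 := by
      simp only [map_div₀, map_sub, map_one, map_ofNat, hσs]
    have hσα' : σ ((-s - 1) / 2) = (-s - 1) / 2 := by
      simp only [map_div₀, map_sub, map_neg, map_one, map_ofNat, hσs]
    have hsame := hX.same_level'₂ hva (P := Point.some ξ η h) (Q := Point.some (σ ξ) (σ η) h') hx0
      hx'0 (by simp only [Xc_some, sub_zero]; exact hσv ξ) (by simpa using hlt) (by simpa using hbξ)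
      (bInt_cast_ne_zero P)
    rcases hsame with hplus | hminus
    · rcases branch_dichotomy (v := v) a3 a6 hsum hprod hunit h.1 hlt (by rw [a4]; exact hbξ) with
        ⟨hb₁, hb₁'⟩ | ⟨hb₁, hb₁'⟩
      · exact key _ _ hsum hprod hunit hσα hb₁ hb₁' hplus
      · exact key _ _ (by rw [add_comm]; exact hsum) (by rw [mul_comm]; exact hprod)
          (by rw [← Valuation.map_neg, neg_sub]; exact hunit) hσα' hb₁ hb₁' hplus
    · exact hminus
  · -- the point has nonsingular reduction
    have hfix : (Point.some (σ ξ) (σ η) h' : (P.freyCurve⁄Kb).Point) = Point.some ξ η h := by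
      have hη : v η ≤ 1 := y_integral (frey_integralCoeffs P A) hξint h.1
      have hdξ : v (σ ξ - ξ) < 1 := hσ2 ξ hξint
      have hdη : v (σ η - η) < 1 := hσ2 η hη
      by_cases hEq : σ ξ = ξ
      · rcases hX.inj _ _ hx'0 hx0 (by simp [hEq]) with h1 | h1
        · exact h1
        · exfalso
          have h3 := hneg h1
          have e : ξ = -(σ η - η) - 2 * η := by rw [h3]; ring
          have : v ξ < 1 := by
            rw [e]
            refine lt_of_le_of_lt (v.map_sub _ _) (max_lt (by rw [Valuation.map_neg]; exact hdη) ?_)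
            rw [map_mul]
            exact lt_of_le_of_lt (mul_le_of_le_one_right' hη) h2
          rw [heq] at this
          exact lt_irrefl _ this
      · exfalso
        have hne : Xc Wk 0 (Point.some (σ ξ) (σ η) h') ≠ Xc Wk 0 (Point.some ξ η h) := by
          simpa using hEq
        rcases hX.E1_of_congr hvb hx'0 hx0 (by simp only [Xc_some, sub_zero]; rw [hσv, heq])
          (by simpa using heq) hne (by simpa using hdξ) with h1 | h1
        · exact absurd (hint _ (hX.add_ne hne) (by rw [nsmul_add, hpact, hx, add_zero]))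
            (not_le.mpr h1)
        · exact absurd (hint _ (hX.sub_ne hne) (by rw [nsmul_sub, hpact, hx, sub_zero]))
            (not_le.mpr h1)
    rw [hfix, sub_self]
    exact ⟨Or.inl rfl, fun _ => rfl⟩

end Main

end Fermat.Agent.S13lib
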