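import Fermat.Agent.S13.Count
import Fermat.Agent.S13.LinAlg
import Fermat.Agent.S13.Global
import Fermat.Agent.S13.Eisenstein
import Fermat.Agent.S13.AtP
import Fermat.Agent.S13.Two
import Fermat.Agent.S13.Rat
import Fermat.Prelude.Def_FLTPrelim_CofixedLine

/-!
# S13: assembly
-/

set_option autoImplicit false

namespace Fermat.Agent.S13lib

open WeierstrassCurve WeierstrassCurve.Affine WeierstrassCurve.Affine.Point Fermat.Agent.S05lib

local notation "Kb" => AlgebraicClosure ℚ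
local notation "GQ" => (AlgebraicClosure ℚ ≃ₐ[ℚ] AlgebraicClosure ℚ)

variable {P : FreyPackage}

local notation "Wk" => (FreyPackage.freyCurve P)⁄Kb
/-- the `p`-torsion of the Frey curve -/
noncomputable abbrev Tors (P : FreyPackage) : Submodule ℤ (P.freyCurve⁄Kb).Point :=
  Submodule.torsionBy ℤ (P.freyCurve⁄Kb).Point P.p


lemma tors_nsmul (x : Tors P) : P.p • x.1 = 0 := by
  have := x.2
  rw [Submodule.mem_torsionBy_iff] at this
  rw [← Nat.cast_smul_eq_nsmul ℤ]
  exact this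

lemma coe_smul_tors (σ : GQ) (x : Tors P) : (σ • x).1 = σ • x.1 := rfl

section subgroups

variable (N : Submodule (ZMod P.p) (Tors P)) (hN : IsGaloisStable ℚ N)

/-- the pointwise stabiliser of `N` -/
def fixN : Subgroup GQ where
  carrier := {σ | ∀ x ∈ N, σ • x = x}
  one_mem' := fun x _ => one_smul _ x
  mul_mem' := by
    intro σ τ hσ hτ x hx
    rw [mul_smul, hτ x hx, hσ x hx]
  inv_mem' := by
    intro σ hσ x hx
    rw [inv_smul_eq_iff, hσ x hx]

/-- the subgroup acting trivially on `V / N` -/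
def cofixN (hN : IsGaloisStable ℚ N) : Subgroup GQ where
  carrier := {σ | ∀ x : Tors P, σ • x - x ∈ N}
  one_mem' := fun x => by rw [one_smul, sub_self]; exact N.zero_mem
  mul_mem' := by
    intro σ τ hσ hτ x
    have h1 : (σ * τ) • x - x = σ • (τ • x - x) + (σ • x - x) := by
      rw [mul_smul, smul_sub]; abel
    rw [h1]
    exact N.add_mem (hN σ _ (hτ x)) (hσ x)
  inv_mem' := by
    intro σ hσ x
    have h1 : σ⁻¹ • x - x = -(σ⁻¹ • (σ • x - x)) := by
      rw [smul_sub, inv_smul_smul]; abel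
    rw [h1]
    exact N.neg_mem (hN σ⁻¹ _ (hσ x))

lemma mem_fixN {σ : GQ} : σ ∈ fixN N ↔ ∀ x ∈ N, σ • x = x := Iff.rfl

lemma mem_cofixN {σ : GQ} : σ ∈ cofixN N hN ↔ ∀ x : Tors P, σ • x - x ∈ N := Iff.rfl

include hN in
lemma fixN_normal : (fixN N).Normal := by
  constructor
  intro σ hσ τ x hx
  rw [mul_smul, mul_smul, hσ _ (hN τ⁻¹ x hx), smul_inv_smul]

lemma cofixN_normal : (cofixN N hN).Normal := by
  constructor
  intro σ hσ τ x
  have h1 : (τ * σ * τ⁻¹) • x - x = τ • (σ • (τ⁻¹ • x) - τ⁻¹ • x) := by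
    rw [mul_smul, mul_smul, smul_sub, smul_inv_smul]
  rw [h1]
  exact hN τ _ (hσ _)

end subgroups

section level

/-- the `y`-coordinate -/
noncomputable def Yc : (P.freyCurve⁄Kb).Point → Kb
  | .zero => 0
  | .some _ y _ => y

lemma isIntegral_Kb (x : Kb) : IsIntegral ℚ x := by
  haveI := Fermat.Agent.FrobExists.isAlgebraicQb
  exact Algebra.IsIntegral.isIntegral x

lemma smul_some (σ : GQ) {x y : Kb} (h : (P.freyCurve⁄Kb).toAffine.Nonsingular x y) :
    ∃ h', σ • (Point.some x y h : (P.freyCurve⁄Kb).Point) = Point.some (σ x) (σ y) h' :=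
  ⟨_, Point.map_some (W' := P.freyCurve) σ.toAlgHom h⟩

lemma exists_level : ∃ F : IntermediateField ℚ Kb, FiniteDimensional ℚ F ∧
    ∀ σ ∈ F.fixingSubgroup, ∀ x : Tors P, σ • x = x := by
  haveI := frey_torsion_finite P
  set S : Set Kb := Set.range (fun x : Tors P => Xc (P.freyCurve⁄Kb) 0 x.1) ∪
    Set.range (fun x : Tors P => Yc x.1) with hS
  haveI : Finite S := by
    rw [hS]
    exact Set.finite_coe_iff.mpr ((Set.finite_range _).union (Set.finite_range _))
  refine ⟨IntermediateField.adjoin ℚ S,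
    IntermediateField.finiteDimensional_adjoin (fun x _ => isIntegral_Kb x), ?_⟩
  intro σ hσ x
  rw [IntermediateField.mem_fixingSubgroup_iff] at hσ
  apply Subtype.ext
  rw [coe_smul_tors]
  have h1 := hσ _ (IntermediateField.subset_adjoin ℚ S (Or.inl ⟨x, rfl⟩))
  have h2 := hσ _ (IntermediateField.subset_adjoin ℚ S (Or.inr ⟨x, rfl⟩))
  rcases hx : x.1 with _ | ⟨a, b, hab⟩
  · rfl
  · obtain ⟨h', e⟩ := smul_some σ hab
    simp only [hx, Xc_some, sub_zero, Yc] at h1 h2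
    rw [e]
    simp only [h1, h2]

end level

section localparts

variable (N : Submodule (ZMod P.p) (Tors P)) (hN : IsGaloisStable ℚ N) (hbot : N ≠ ⊥)
  (htop : N ≠ ⊤)

lemma inertia_away {q : ℕ} (hq : q.Prime) (hq2 : q ≠ 2) (hqp : q ≠ P.p)
    (A : ValuationSubring Kb) (hA : A.LiesOverPrime q) (σ : GQ)
    (hσ : σ ∈ A.inertiaSubgroupIn ℚ) (x : Tors P) : σ • x = x :=
  Subtype.ext (frey_inertia_trivial hq hq2 hqp A hA σ hσ x.1 (tors_nsmul x))

/-- the `p`-torsion in the identity component at `2` -/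
noncomputable def E0sub (A : ValuationSubring Kb) (hA : A.LiesOverPrime 2) : AddSubgroup (Tors P) where
  carrier := {x | E0 (Xc (P.freyCurve⁄Kb) 0) A.valuation x.1}
  zero_mem' := Or.inl rfl
  add_mem' := fun hx hy => frey_E0_add A hA hx hy
  neg_mem' := fun hx => (frey_isXMap P).E0_neg hx

include hN hbot htop in
lemma inertia_two (A : ValuationSubring Kb) (hA : A.LiesOverPrime 2) (σ : GQ)
    (hσ : σ ∈ A.inertiaSubgroupIn ℚ) : (∀ x ∈ N, σ • x = x) ∧ (∀ x : Tors P, σ • x - x ∈ N) := by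
  haveI : Fact P.p.Prime := ⟨P.pp⟩
  haveI := frey_torsion_finite P
  exact unipotent_of_card (frey_torsion_card_le P) N hbot htop
    (DistribSMul.toAddMonoidHom (Tors P) σ) (fun x hx => hN σ x hx) (E0sub A hA)
    (fun x => (frey_inertia_two A hA σ hσ x.1 (tors_nsmul x)).1)
    (fun x hx => Subtype.ext ((frey_inertia_two A hA σ hσ x.1 (tors_nsmul x)).2 hx))

/-- the `p`-torsion in the kernel of reduction at `p` -/
noncomputable def E1sub (A : ValuationSubring Kb) (hA : A.LiesOverPrime P.p) : AddSubgroup (Tors P) where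
  carrier := {x | E1 (Xc (P.freyCurve⁄Kb) 0) A.valuation x.1}
  zero_mem' := Or.inl rfl
  add_mem' := by
    intro x y hx hy
    have h := frey_E1_sub P.pp (by have := P.hp5; omega) A hA hx
      ((frey_isXMap P).E1_neg A.valuation hy)
    rw [sub_neg_eq_add] at h
    exact h
  neg_mem' := fun hx => (frey_isXMap P).E1_neg A.valuation hx

lemma Xc_smul (σ : GQ) (g : (P.freyCurve⁄Kb).Point) :
    Xc (P.freyCurve⁄Kb) 0 (σ • g) = σ (Xc (P.freyCurve⁄Kb) 0 g) := by
  rcases g with _ | ⟨a, b, hab⟩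
  · exact (map_zero σ).symm
  · obtain ⟨h', e⟩ := smul_some σ hab
    rw [e, Xc_some, Xc_some, sub_zero, sub_zero]

include hN hbot htop in
lemma E1sub_ne_top (A : ValuationSubring Kb) (hA : A.LiesOverPrime P.p) : E1sub A hA ≠ ⊤ := by
  haveI : Fact P.p.Prime := ⟨P.pp⟩
  haveI := frey_torsion_finite P
  intro hM
  obtain ⟨f, hdeg, hlead, hf⟩ := frey_divPoly P
  have hp5 := P.hp5
  have hpp : 5 * P.p ≤ P.p ^ 2 := by nlinarith
  have hd : 0 < (P.p ^ 2 - 1) / 2 := by omega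
  have hroots : ∀ ξ : Kb, Polynomial.aeval ξ f = 0 → ξ ∉ A := by
    intro ξ hξ
    obtain ⟨g, hg0, hg⟩ := X_surj P ξ
    rw [← hg] at hξ
    have hpg : P.p • g = 0 := (hf g hg0).mpr hξ
    have hmem : g ∈ Tors P := by
      rw [Submodule.mem_torsionBy_iff, Nat.cast_smul_eq_nsmul ℤ]
      exact hpg
    have h1 : (⟨g, hmem⟩ : Tors P) ∈ E1sub A hA := by rw [hM]; trivial
    have h2 : 1 < A.valuation (Xc (P.freyCurve⁄Kb) 0 g) := h1.resolve_left hg0
    rw [hg] at h2
    rw [← A.valuation_le_one_iff]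
    exact not_le.mpr h2
  obtain ⟨x0, hx0N, hx0⟩ := (Submodule.ne_bot_iff N).mp hbot
  have hx0' : x0.1 ≠ 0 := fun h => hx0 (Subtype.ext h)
  set S : Set Kb := (fun x : Tors P => Xc (P.freyCurve⁄Kb) 0 x.1) '' {x | x ∈ N ∧ x ≠ 0} with hS
  have hfin : S.Finite := (Set.toFinite _).image _
  have hstab : ∀ σ : GQ, ∀ ξ ∈ S, σ ξ ∈ S := by
    rintro σ _ ⟨x, ⟨hxN, hx⟩, rfl⟩
    refine ⟨σ • x, ⟨hN σ x hxN, ?_⟩, ?_⟩
    · rwa [Ne, smul_eq_zero_iff_eq]
    · exact Xc_smul σ x.1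
  have h1 := le_ncard_of_stable P.pp hd f hdeg hlead A hA hroots S hfin hstab
    (Xc (P.freyCurve⁄Kb) 0 x0.1) ⟨x0, ⟨hx0N, hx0⟩, rfl⟩ ((hf x0.1 hx0').mp (tors_nsmul x0))
  have h2 : S.ncard ≤ ({x | x ∈ N ∧ x ≠ 0} : Set (Tors P)).ncard := Set.ncard_image_le (Set.toFinite _)
  have h3 : ({x | x ∈ N ∧ x ≠ 0} : Set (Tors P)).ncard ≤ (N : Set (Tors P)).ncard :=
    Set.ncard_le_ncard (fun x hx => hx.1) (Set.toFinite _)
  have h4 : (N : Set (Tors P)).ncard = P.p := by
    have h5 : Nat.card N = P.p ^ Module.finrank (ZMod P.p) N := by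
      rw [Module.natCard_eq_pow_finrank (K := ZMod P.p) (V := N), Nat.card_zmod]
    rw [(finrank_of_card (frey_torsion_card_le P) N hbot htop).1, pow_one] at h5
    exact h5
  omega

include hN hbot htop in
lemma inertia_p (A : ValuationSubring Kb) (hA : A.LiesOverPrime P.p) :
    (∀ σ ∈ A.inertiaSubgroupIn ℚ, ∀ x : Tors P, σ • x - x ∈ N) ∨
      (∀ σ ∈ A.inertiaSubgroupIn ℚ, ∀ x ∈ N, σ • x = x) := by
  haveI : Fact P.p.Prime := ⟨P.pp⟩
  haveI := frey_torsion_finite P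
  have h := dichotomy_of_card (frey_torsion_card_le P) N hbot htop (E1sub A hA)
    (E1sub_ne_top N hN hbot htop A hA)
    {s | ∃ σ ∈ A.inertiaSubgroupIn ℚ, s = DistribSMul.toAddMonoidHom (Tors P) σ} (by
      rintro _ ⟨σ, hσ, rfl⟩
      exact ⟨fun x hx => hN σ x hx, fun x =>
        frey_inertia_E1 P.pp (by have := P.hp5; omega) A hA σ hσ x.1 (tors_nsmul x)⟩)
  rcases h with h | h
  · exact Or.inl fun σ hσ x => h _ ⟨σ, hσ, rfl⟩ x
  · exact Or.inr fun σ hσ x hx => h _ ⟨σ, hσ, rfl⟩ x hx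

end localparts

theorem main (P : FreyPackage)
    (hred : ¬ GaloisRepIsIrreducible (K := AlgebraicClosure ℚ) ℚ P.freyCurve P.p) :
    HasGaloisStableCofixedLine (K := AlgebraicClosure ℚ) ℚ P.freyCurve P.p := by
  have hex : ∃ N : Submodule (ZMod P.p) (Tors P), IsGaloisStable ℚ N ∧ N ≠ ⊥ ∧ N ≠ ⊤ := by
    by_contra hcon
    apply hred
    refine ⟨frey_torsion_nontrivial P, fun N hN => ?_⟩
    by_contra h
    rw [not_or] at h
    exact hcon ⟨N, hN, h.1, h.2⟩
  obtain ⟨N, hN, hbot, htop⟩ := hex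
  refine ⟨N, hN, hbot, htop, ?_⟩
  obtain ⟨F, hF, hFfix⟩ := exists_level (P := P)
  obtain ⟨Ap, hAp⟩ := Fermat.Agent.FrobExists.exists_liesOverPrime P.p P.pp
  -- the inertia groups away from `p`
  have haway : ∀ q : ℕ, q.Prime → q ≠ P.p → ∃ A : ValuationSubring Kb, A.LiesOverPrime q ∧
      ∀ σ ∈ A.inertiaSubgroupIn ℚ, (∀ x ∈ N, σ • x = x) ∧ (∀ x : Tors P, σ • x - x ∈ N) := by
    intro q hq hqp
    obtain ⟨A, hA⟩ := Fermat.Agent.FrobExists.exists_liesOverPrime q hq
    refine ⟨A, hA, fun σ hσ => ?_⟩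
    by_cases hq2 : q = 2
    · subst hq2
      exact inertia_two N hN hbot htop A hA σ hσ
    · refine ⟨fun x _ => inertia_away hq hq2 hqp A hA σ hσ x, fun x => ?_⟩
      rw [inertia_away hq hq2 hqp A hA σ hσ x, sub_self]
      exact N.zero_mem
  rcases inertia_p N hN hbot htop Ap hAp with hp | hp
  · have htopH : cofixN N hN = ⊤ := by
      apply eq_top_of_inertia_le _ (cofixN_normal N hN)
      · refine ⟨F, hF, fun σ hσ x => ?_⟩
        rw [hFfix σ hσ x, sub_self]
        exact N.zero_mem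
      · intro q hq
        by_cases hqp : q = P.p
        · subst hqp
          exact ⟨Ap, hAp, fun σ hσ => hp σ hσ⟩
        · obtain ⟨A, hA, h⟩ := haway q hq hqp
          exact ⟨A, hA, fun σ hσ => (h σ hσ).2⟩
    intro σ x
    have : σ ∈ cofixN N hN := by rw [htopH]; trivial
    exact this x
  · exfalso
    have htopH : fixN N = ⊤ := by
      apply eq_top_of_inertia_le _ (fixN_normal N hN)
      · exact ⟨F, hF, fun σ hσ x _ => hFfix σ hσ x⟩
      · intro q hq
        by_cases hqp : q = P.p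
        · subst hqp
          exact ⟨Ap, hAp, fun σ hσ => hp σ hσ⟩
        · obtain ⟨A, hA, h⟩ := haway q hq hqp
          exact ⟨A, hA, fun σ hσ => (h σ hσ).1⟩
    obtain ⟨x0, hx0N, hx0⟩ := (Submodule.ne_bot_iff N).mp hbot
    refine frey_no_rational_torsion P x0.1 (fun h => hx0 (Subtype.ext h)) (tors_nsmul x0) ?_
    intro σ
    have : σ ∈ fixN N := by rw [htopH]; trivial
    exact congrArg Subtype.val (this x0 hx0N)

end Fermat.Agent.S13lib
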