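import Mathlib

/-!
# S13: general lemmas on valuations (roots of integer polynomials, automorphisms, rationals)
-/

set_option autoImplicit false

namespace Fermat.Agent.S13pre

open Polynomial

section root

variable {L Γ : Type*} [Field L] [LinearOrderedCommGroupWithZero Γ] (v : Valuation L Γ)

/-- A root of an integer polynomial whose top coefficient is a unit is integral. -/
lemma val_le_one_of_root (hint : ∀ n : ℤ, v (n : L) ≤ 1) (f : ℤ[X]) {d : ℕ}
    (hdeg : f.natDegree ≤ d) (hlead : v ((f.coeff d : ℤ) : L) = 1) {ξ : L}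
    (hξ : aeval ξ f = 0) : v ξ ≤ 1 := by
  by_contra hcon
  have h1 : 1 < v ξ := not_le.mp hcon
  rw [aeval_eq_sum_range' (Nat.lt_succ_of_le hdeg), Finset.sum_range_succ] at hξ
  have hpos : v ξ ^ d ≠ 0 := pow_ne_zero _ (ne_of_gt (lt_trans zero_lt_one h1))
  have h2 : v (∑ i ∈ Finset.range d, f.coeff i • ξ ^ i) < v ξ ^ d := by
    apply Valuation.map_sum_lt v hpos
    intro i hi
    rw [zsmul_eq_mul, map_mul, map_pow]
    calc v ((f.coeff i : ℤ) : L) * v ξ ^ i ≤ 1 * v ξ ^ i := mul_le_mul_left (hint _) _
      _ = v ξ ^ i := one_mul _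
      _ < v ξ ^ d := pow_lt_pow_right₀ h1 (Finset.mem_range.mp hi)
  have h3 : f.coeff d • ξ ^ d = -(∑ i ∈ Finset.range d, f.coeff i • ξ ^ i) := by
    linear_combination hξ
  have h4 : v (f.coeff d • ξ ^ d) = v ξ ^ d := by
    rw [zsmul_eq_mul, map_mul, map_pow, hlead, one_mul]
  rw [h3, Valuation.map_neg] at h4
  exact absurd h4 h2.ne

end root

section auto

variable {K L Γ : Type*} [Field K] [Field L] [Algebra K L] [Algebra.IsAlgebraic K L]
  [LinearOrderedCommGroupWithZero Γ] {v : Valuation L Γ}

lemma exists_iterate_eq (σ : L ≃ₐ[K] L) (x : L) : ∃ k : ℕ, 0 < k ∧ σ^[k] x = x := by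
  have hx : IsIntegral K x := Algebra.IsIntegral.isIntegral x
  have hfin : ((minpoly K x).rootSet L).Finite := rootSet_finite _ _
  have hmem : ∀ n : ℕ, σ^[n] x ∈ (minpoly K x).rootSet L := by
    intro n
    rw [mem_rootSet]
    refine ⟨minpoly.ne_zero hx, ?_⟩
    induction n with
    | zero => exact minpoly.aeval K x
    | succ n ih =>
      rw [Function.iterate_succ_apply']
      have := aeval_algHom_apply (σ : L →ₐ[K] L) (σ^[n] x) (minpoly K x)
      rw [ih, map_zero] at this
      exact this
  obtain ⟨i, j, hij, he⟩ := hfin.exists_lt_map_eq_of_forall_mem hmem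
  refine ⟨j - i, Nat.sub_pos_of_lt hij, ?_⟩
  have hj : j = i + (j - i) := by omega
  rw [hj, Function.iterate_add_apply] at he
  exact ((σ.injective.iterate i) he).symm

/-- An automorphism preserving the valuation ring preserves the valuation. -/
theorem val_sigma_eq (σ : L ≃ₐ[K] L) (h : ∀ x, v (σ x) ≤ 1 ↔ v x ≤ 1) (x : L) :
    v (σ x) = v x := by
  by_cases hx0 : x = 0
  · rw [hx0, map_zero]
  have hle : ∀ y z : L, z ≠ 0 → (v (σ y) ≤ v (σ z) ↔ v y ≤ v z) := by
    intro y z hz
    have hσz : σ z ≠ 0 := (map_ne_zero σ).mpr hz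
    have h1 := h (y / z)
    rw [map_div₀, map_div₀, map_div₀,
      div_le_one₀ (zero_lt_iff.mpr (v.ne_zero_iff.mpr hσz)),
      div_le_one₀ (zero_lt_iff.mpr (v.ne_zero_iff.mpr hz))] at h1
    exact h1
  have hne : ∀ n : ℕ, σ^[n] x ≠ 0 := by
    intro n
    induction n with
    | zero => exact hx0
    | succ n ih => rw [Function.iterate_succ_apply']; exact (map_ne_zero σ).mpr ih
  obtain ⟨k, hk, hkx⟩ := exists_iterate_eq σ x
  rcases lt_trichotomy (v (σ x)) (v x) with hlt | heq | hgt
  · exfalso
    have hstep : ∀ n : ℕ, v (σ^[n + 1] x) < v (σ^[n] x) := by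
      intro n
      induction n with
      | zero => exact hlt
      | succ n ih =>
        have hn1 := hne (n + 1)
        rw [Function.iterate_succ_apply' σ (n + 1)]
        rw [Function.iterate_succ_apply' σ n] at ih hn1 ⊢
        exact not_le.mp (fun hc => absurd ((hle _ _ hn1).mp hc) (not_le.mpr ih))
    have hall : ∀ n : ℕ, 0 < n → v (σ^[n] x) < v x := by
      intro n hn
      induction n with
      | zero => exact absurd hn (lt_irrefl _)
      | succ n ih =>
        rcases Nat.eq_zero_or_pos n with rfl | hn'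
        · exact hlt
        · exact (hstep n).trans (ih hn')
    have := hall k hk
    rw [hkx] at this
    exact lt_irrefl _ this
  · exact heq
  · exfalso
    have hstep : ∀ n : ℕ, v (σ^[n] x) < v (σ^[n + 1] x) := by
      intro n
      induction n with
      | zero => exact hgt
      | succ n ih =>
        rw [Function.iterate_succ_apply' σ (n + 1)]
        rw [Function.iterate_succ_apply' σ n] at ih ⊢
        exact not_le.mp (fun hc => absurd ((hle _ _ (hne n)).mp hc) (not_le.mpr ih))
    have hall : ∀ n : ℕ, 0 < n → v x < v (σ^[n] x) := by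
      intro n hn
      induction n with
      | zero => exact absurd hn (lt_irrefl _)
      | succ n ih =>
        rcases Nat.eq_zero_or_pos n with rfl | hn'
        · exact hgt
        · exact (ih hn').trans (hstep n)
    have := hall k hk
    rw [hkx] at this
    exact lt_irrefl _ this

end auto

end Fermat.Agent.S13pre
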