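import Fermat.Agent.S13.Count
import Fermat.Agent.S13.Mult2
import Fermat.Agent.S13.Branch
import Fermat.Agent.S13.ValLemmas
import Fermat.Agent.S54lib.FrobExists

/-!
# S13: local analysis of the Frey curve at the prime `2`
-/

set_option autoImplicit false

namespace Fermat.Agent.S13pre

open Polynomial WeierstrassCurve WeierstrassCurve.Affine Fermat.Agent.S05lib Fermat.Agent.S13lib

local notation "Kb" => AlgebraicClosure ℚ

section rat

variable {L : Type*} [Field L] [CharZero L] {A : ValuationSubring L} {q : ℕ}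

lemma val_int_eq_pow (hA : A.LiesOverPrime q) (hq : q.Prime) {n : ℤ} (hn : n ≠ 0) :
    ∃ j : ℕ, A.valuation (n : L) = A.valuation (q : L) ^ j := by
  have hfin : FiniteMultiplicity (q : ℤ) n := by
    rw [Int.finiteMultiplicity_iff]
    exact ⟨by simpa using hq.ne_one, hn⟩
  obtain ⟨c, hc, hdvd⟩ := hfin.exists_eq_pow_mul_and_not_dvd
  refine ⟨multiplicity (q : ℤ) n, ?_⟩
  conv_lhs => rw [hc]
  push_cast
  rw [map_mul, map_pow, val_int_eq_one hA hq hdvd, mul_one]

lemma val_rat_eq_zpow (hA : A.LiesOverPrime q) (hq : q.Prime) {r : ℚ} (hr : r ≠ 0) :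
    ∃ k : ℤ, A.valuation (r : L) = A.valuation (q : L) ^ k := by
  obtain ⟨i, hi⟩ := val_int_eq_pow (L := L) hA hq (Rat.num_ne_zero.mpr hr)
  obtain ⟨j, hj⟩ := val_int_eq_pow (L := L) hA hq (n := (r.den : ℤ)) (by exact_mod_cast r.den_nz)
  refine ⟨(i : ℤ) - j, ?_⟩
  have hq0 : A.valuation (q : L) ≠ 0 := by
    rw [Valuation.ne_zero_iff]
    exact_mod_cast hq.ne_zero
  rw [Rat.cast_def, map_div₀, hi]
  rw [Int.cast_natCast] at hj
  rw [hj, zpow_sub₀ hq0, zpow_natCast, zpow_natCast]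

lemma val_rat_residue (hA : A.LiesOverPrime 2) {r : ℚ} (hr : A.valuation (r : L) ≤ 1) :
    A.valuation (r : L) < 1 ∨ A.valuation ((r : L) - 1) < 1 := by
  have hden0 : (r.den : L) ≠ 0 := by exact_mod_cast r.den_nz
  have hcop := r.reduced
  have hdodd : ¬ ((2 : ℕ) : ℤ) ∣ (r.den : ℤ) := by
    intro hd
    have hn : ¬ ((2 : ℕ) : ℤ) ∣ r.num := by
      intro hn
      have h1 : 2 ∣ r.num.natAbs := by
        have := Int.natAbs_dvd_natAbs.mpr hn
        simpa using this
      have h2 : 2 ∣ r.den := by exact_mod_cast hd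
      have := Nat.dvd_gcd h1 h2
      rw [hcop] at this
      omega
    have h3 := val_int_eq_one (L := L) hA Nat.prime_two hn
    have h4 := val_int_lt_one (L := L) hA hd
    rw [Int.cast_natCast] at h4
    rw [Rat.cast_def, map_div₀, h3] at hr
    have h5 : 0 < A.valuation (r.den : L) := zero_lt_iff.mpr ((Valuation.ne_zero_iff _).mpr hden0)
    rw [div_le_one₀ h5] at hr
    exact absurd h4 (not_lt.mpr hr)
  have hd1 := val_int_eq_one (L := L) hA Nat.prime_two hdodd
  rw [Int.cast_natCast] at hd1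
  by_cases hn : ((2 : ℕ) : ℤ) ∣ r.num
  · left
    rw [Rat.cast_def, map_div₀, hd1, div_one]
    exact val_int_lt_one hA hn
  · right
    have h6 : ((2 : ℕ) : ℤ) ∣ r.num - r.den := by
      have : ((2 : ℕ) : ℤ) = 2 := rfl
      rw [this] at hn hdodd ⊢
      omega
    have h7 : (r : L) - 1 = ((r.num - r.den : ℤ) : L) / (r.den : L) := by
      rw [Rat.cast_def]
      push_cast
      field_simp
    rw [h7, map_div₀, hd1, div_one]
    exact val_int_lt_one hA h6

end rat

section arith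

variable (P : FreyPackage)

lemma four_dvd_aInt_sub_one : (4 : ℤ) ∣ aInt P - 1 := by
  have h := (ZMod.intCast_zmod_eq_zero_iff_dvd (aInt P - 1) 4).mp
  apply h
  have hb : ((P.b ^ P.p : ℤ) : ZMod 4) = 0 := by
    rw [ZMod.intCast_zmod_eq_zero_iff_dvd]
    exact Dvd.dvd.trans (by norm_num) (thirtytwo_dvd P)
  have h3 : (3 : ZMod 4) = -1 := by decide
  unfold aInt
  rw [Int.cast_sub, Int.cast_sub, hb, Int.cast_pow, P.ha4, h3, P.hp_odd.neg_one_pow]
  simp

/-- `a₂` of the Frey curve -/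
def a2Int : ℤ := (aInt P - 1) / 4

lemma four_mul_a2Int : 4 * a2Int P = aInt P - 1 :=
  Int.mul_ediv_cancel' (four_dvd_aInt_sub_one P)

lemma aInt_odd : ¬ ((2 : ℕ) : ℤ) ∣ aInt P := by
  have := four_mul_a2Int P
  intro h
  have h2 : ((2 : ℕ) : ℤ) = 2 := rfl
  rw [h2] at h
  omega

lemma frey_a₂_eq : (P.freyCurve⁄Kb).a₂ = (a2Int P : Kb) := by
  have h : ((4 * a2Int P : ℤ) : Kb) = ((aInt P - 1 : ℤ) : Kb) := by rw [four_mul_a2Int]
  unfold aInt at h
  push_cast at h
  rw [frey_a₂, div_eq_iff (by norm_num)]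
  linear_combination -h

lemma frey_a₄_eq : (P.freyCurve⁄Kb).a₄ = (bInt P : Kb) := by
  rw [frey_a₄, bInt_cast]
  ring

lemma aInt_cast_eq : (aInt P : Kb) = 1 + 4 * (a2Int P : Kb) := by
  have h : ((4 * a2Int P : ℤ) : Kb) = ((aInt P - 1 : ℤ) : Kb) := by rw [four_mul_a2Int]
  push_cast at h
  linear_combination -h

end arith

section local2

variable (P : FreyPackage) {A : ValuationSubring Kb} (hA : A.LiesOverPrime 2)

include hA

lemma pre_v_a : A.valuation (aInt P : Kb) = 1 := val_int_eq_one hA Nat.prime_two (aInt_odd P)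

lemma pre_v_b : A.valuation (bInt P : Kb) < 1 := val_int_lt_one hA (two_dvd_bInt P)

lemma pre_v_two : A.valuation (2 : Kb) < 1 := by
  have := val_q_lt_one hA
  simpa using this

lemma pre_v_p : A.valuation (P.p : Kb) = 1 :=
  val_prime_eq_one hA Nat.prime_two P.pp (by have := P.hp5; omega)

omit hA in
lemma frey_integralCoeffs : IntegralCoeffs (P.freyCurve⁄Kb) A.valuation where
  a₁ := by rw [frey_a₁, map_one]
  a₂ := by rw [frey_a₂_eq]; exact val_int_le_one A _
  a₃ := by rw [frey_a₃, map_zero]; exact zero_le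
  a₄ := by rw [frey_a₄_eq]; exact val_int_le_one A _
  a₆ := by rw [frey_a₆, map_zero]; exact zero_le

/-- `p`-torsion points are integral at `2`. -/
lemma tors_integral {g : (P.freyCurve⁄Kb).Point} (hg0 : g ≠ 0) (hg : P.p • g = 0) :
    A.valuation (Xc (P.freyCurve⁄Kb) 0 g) ≤ 1 := by
  obtain ⟨f, hdeg, hlead, hf⟩ := frey_divPoly P
  refine val_le_one_of_root A.valuation (val_int_le_one A) f hdeg ?_ ((hf g hg0).mp hg)
  rw [hlead, Int.cast_natCast]
  exact pre_v_p P hA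

/-- `p`-torsion points are not too close to the node. -/
lemma tors_not_far {g : (P.freyCurve⁄Kb).Point} (hg0 : g ≠ 0) (hg : P.p • g = 0)
    (h : A.valuation (Xc (P.freyCurve⁄Kb) 0 g) < 1) :
    A.valuation (bInt P : Kb) < A.valuation (Xc (P.freyCurve⁄Kb) 0 g) := by
  have hX := frey_isXMap P
  obtain ⟨m, hm⟩ := exists_EQ (v := A.valuation) (bInt_cast_ne_zero P)
  have hm0 : 0 < m := hm.lt_one_iff.mp (pre_v_b P hA)
  by_contra hcon
  have hfar : GE A.valuation (Xc (P.freyCurve⁄Kb) 0 g) m := (GE_iff_of_EQ hm).mpr (not_lt.mp hcon)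
  have h1 := hX.far_dbl₂ (pre_v_a P hA) hm hg0 hm0 hfar
  obtain ⟨j, hj⟩ := P.hp_odd
  have h3 := hX.E0_nsmul₂ (pre_v_a P hA).le (pre_v_b P hA) h1 (j + 1)
  have h4 : (j + 1) • (g + g) = g := by
    have : (j + 1) • (g + g) = P.p • g + g := by rw [hj]; module
    rw [this, hg, zero_add]
  rw [h4] at h3
  exact absurd (h3.resolve_left hg0) (not_le.mpr h)

/-- Two `p`-torsion points in the identity component with the same reduction are equal. -/
lemma eq_of_congr {x₁ y₁ x₂ y₂ : Kb} {h₁ : (P.freyCurve⁄Kb).toAffine.Nonsingular x₁ y₁}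
    {h₂ : (P.freyCurve⁄Kb).toAffine.Nonsingular x₂ y₂}
    (ht₁ : P.p • (Point.some x₁ y₁ h₁) = 0) (ht₂ : P.p • (Point.some x₂ y₂ h₂) = 0)
    (hx : A.valuation x₂ = 1) (hxx : A.valuation (x₁ - x₂) < 1)
    (hyy : A.valuation (y₁ - y₂) < 1) : Point.some x₁ y₁ h₁ = Point.some x₂ y₂ h₂ := by
  have hX := frey_isXMap P
  by_cases hne : x₁ = x₂
  · rcases Y_eq_of_X_eq h₁.1 h₂.1 hne with hy | hy
    · subst hne; subst hy; rfl
    · exfalso
      have hy2 : A.valuation y₂ ≤ 1 := y_integral (frey_integralCoeffs P) hx.le h₂.1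
      rw [hy, negY, frey_a₁, frey_a₃] at hyy
      have e : -y₂ - 1 * x₂ - 0 - y₂ = -x₂ + -(2 * y₂) := by ring
      have h2y : A.valuation (-(2 * y₂)) < 1 := by
        rw [Valuation.map_neg, map_mul]
        exact lt_of_le_of_lt (mul_le_of_le_one_right' hy2) (pre_v_two hA)
      have h3 : A.valuation (-x₂ + -(2 * y₂)) = A.valuation (-x₂) :=
        Valuation.map_add_eq_of_lt_left _ (by rw [Valuation.map_neg _ x₂, hx]; exact h2y)
      rw [e, h3, Valuation.map_neg, hx] at hyy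
      exact lt_irrefl _ hyy
  · exfalso
    set g₁ : (P.freyCurve⁄Kb).Point := Point.some x₁ y₁ h₁ with hg₁
    set g₂ : (P.freyCurve⁄Kb).Point := Point.some x₂ y₂ h₂ with hg₂
    have e₁ : Xc (P.freyCurve⁄Kb) 0 g₁ = x₁ := by rw [hg₁, Xc_some, sub_zero]
    have e₂ : Xc (P.freyCurve⁄Kb) 0 g₂ = x₂ := by rw [hg₂, Xc_some, sub_zero]
    have hne' : Xc (P.freyCurve⁄Kb) 0 g₁ ≠ Xc (P.freyCurve⁄Kb) 0 g₂ := by rwa [e₁, e₂]
    have hpr := hX.prod g₁ g₂ (Point.some_ne_zero h₁) (Point.some_ne_zero h₂) hne'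
    have ht₁' : P.p • g₁ = 0 := ht₁
    have ht₂' : P.p • g₂ = 0 := ht₂
    have ha := tors_integral P hA (hX.add_ne hne') (by rw [nsmul_add, ht₁', ht₂', add_zero])
    have hs := tors_integral P hA (hX.sub_ne hne') (by rw [nsmul_sub, ht₁', ht₂', sub_zero])
    rw [e₁, e₂] at hpr
    have hx1 : A.valuation x₁ = 1 := by
      have : x₁ = x₂ + (x₁ - x₂) := by ring
      rw [this, Valuation.map_add_eq_of_lt_left _ (by rw [hx]; exact hxx), hx]
    have hR : A.valuation ((x₁ * x₂ - (bInt P : Kb)) ^ 2) = 1 := by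
      rw [map_pow, Valuation.map_sub_eq_of_lt_left _ (by
        rw [map_mul, hx1, hx, one_mul]; exact pre_v_b P hA), map_mul, hx1, hx, one_mul, one_pow]
    have hL : A.valuation (Xc (P.freyCurve⁄Kb) 0 (g₁ + g₂) * Xc (P.freyCurve⁄Kb) 0 (g₁ - g₂)
        * (x₁ - x₂) ^ 2) < 1 := by
      rw [map_mul, map_mul, map_pow]
      calc _ ≤ 1 * A.valuation (x₁ - x₂) ^ 2 := mul_le_mul_left (mul_le_one' ha hs) _
        _ = A.valuation (x₁ - x₂) ^ 2 := one_mul _
        _ < 1 := pow_lt_one₀ zero_le hxx two_ne_zero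
    rw [hpr, hR] at hL
    exact lt_irrefl _ hL

end local2

end Fermat.Agent.S13pre
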