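import Fermat.Agent.S05.Frey

/-!
# S13: basic set-up for the Frey curve
-/

set_option autoImplicit false

namespace Fermat.Agent.S13lib

open WeierstrassCurve WeierstrassCurve.Affine Fermat.Agent.S05lib

local notation "Kb" => AlgebraicClosure ℚ

variable (P : FreyPackage)

/-- `b₂` of the Frey curve -/
def aInt : ℤ := P.b ^ P.p - P.a ^ P.p

/-- `a₄` of the Frey curve -/
def bInt : ℤ := -(P.a ^ P.p * P.b ^ P.p) / 16

lemma two_dvd_b : (2 : ℤ) ∣ P.b := (ZMod.intCast_zmod_eq_zero_iff_dvd P.b 2).1 P.hb2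

lemma thirtytwo_dvd : (32 : ℤ) ∣ P.b ^ P.p := by
  have h1 : (2 : ℤ) ^ 5 ∣ P.b ^ 5 := pow_dvd_pow_of_dvd (two_dvd_b P) 5
  have h2 : P.b ^ 5 ∣ P.b ^ P.p := pow_dvd_pow _ P.hp5
  exact (by norm_num : (32 : ℤ) = 2 ^ 5) ▸ h1.trans h2

lemma sixteen_mul_bInt : 16 * bInt P = -(P.a ^ P.p * P.b ^ P.p) := by
  unfold bInt
  apply Int.mul_ediv_cancel'
  obtain ⟨k, hk⟩ := thirtytwo_dvd P
  exact ⟨-(P.a ^ P.p * (2 * k)), by rw [hk]; ring⟩

lemma two_dvd_bInt : (2 : ℤ) ∣ bInt P := by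
  obtain ⟨k, hk⟩ := thirtytwo_dvd P
  have h := sixteen_mul_bInt P
  rw [hk] at h
  exact ⟨-(P.a ^ P.p * k), by linarith⟩

lemma bInt_ne_zero : bInt P ≠ 0 := by
  intro h
  have := sixteen_mul_bInt P
  rw [h, mul_zero] at this
  have h2 : P.a ^ P.p * P.b ^ P.p ≠ 0 := mul_ne_zero (pow_ne_zero _ P.ha0) (pow_ne_zero _ P.hb0)
  exact h2 (by linarith)

lemma disc_eq : aInt P ^ 2 - 64 * bInt P = (P.c ^ P.p) ^ 2 := by
  have h := sixteen_mul_bInt P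
  rw [← P.hFLT]
  unfold aInt
  linear_combination (-4 : ℤ) * h

lemma disc_ne_zero : aInt P ^ 2 - 64 * bInt P ≠ 0 := by
  rw [disc_eq]; exact pow_ne_zero _ (pow_ne_zero _ P.hc0)

lemma bInt_cast : (bInt P : Kb) = -((P.a : Kb) ^ P.p * (P.b : Kb) ^ P.p) / 16 := by
  have h : ((16 * bInt P : ℤ) : Kb) = ((-(P.a ^ P.p * P.b ^ P.p) : ℤ) : Kb) := by
    rw [sixteen_mul_bInt]
  push_cast at h
  rw [eq_div_iff (by norm_num)]
  linear_combination h

lemma abar_eq : abar (P.freyCurve⁄Kb) 0 = (aInt P : Kb) := by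
  simp only [abar, b₂, frey_a₁, frey_a₂, aInt]
  push_cast
  ring

lemma bbar_eq : bbar (P.freyCurve⁄Kb) 0 = (bInt P : Kb) := by
  rw [bInt_cast]
  simp only [bbar, b₂, b₄, frey_a₁, frey_a₂, frey_a₃, frey_a₄]
  ring

lemma frey_root_zero : 4 * (0 : Kb) ^ 3 + (P.freyCurve⁄Kb).b₂ * 0 ^ 2 + 2 * (P.freyCurve⁄Kb).b₄ * 0
    + (P.freyCurve⁄Kb).b₆ = 0 := by
  simp only [b₆, frey_a₃, frey_a₆]; ring

/-- the x-coordinate of the Frey curve is an abstract x-coordinate map with integer parameters -/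
theorem frey_isXMap : IsXMap (Xc (P.freyCurve⁄Kb) 0) (aInt P : Kb) (bInt P : Kb) := by
  have := isXMap_Xc (W := (P.freyCurve⁄Kb)) (frey_root_zero P)
  rwa [abar_eq, bbar_eq] at this

lemma bInt_cast_ne_zero : (bInt P : Kb) ≠ 0 := by exact_mod_cast bInt_ne_zero P

lemma disc_cast_ne_zero : (aInt P : Kb) ^ 2 - 64 * (bInt P : Kb) ≠ 0 := by
  exact_mod_cast disc_ne_zero P

/-- every element of `ℚ̄` is the x-coordinate of a point -/
lemma X_surj (ξ : Kb) : ∃ g : (P.freyCurve⁄Kb).Point, g ≠ 0 ∧ Xc (P.freyCurve⁄Kb) 0 g = ξ := by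
  obtain ⟨y, hy⟩ := IsAlgClosed.exists_root
    (Polynomial.X ^ 2 + Polynomial.C ((P.freyCurve⁄Kb).a₁ * ξ + (P.freyCurve⁄Kb).a₃) * Polynomial.X
      - Polynomial.C (ξ ^ 3 + (P.freyCurve⁄Kb).a₂ * ξ ^ 2 + (P.freyCurve⁄Kb).a₄ * ξ
        + (P.freyCurve⁄Kb).a₆) : Polynomial Kb)
    (by
      have : (Polynomial.X ^ 2 + Polynomial.C ((P.freyCurve⁄Kb).a₁ * ξ + (P.freyCurve⁄Kb).a₃)
          * Polynomial.X - Polynomial.C (ξ ^ 3 + (P.freyCurve⁄Kb).a₂ * ξ ^ 2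
          + (P.freyCurve⁄Kb).a₄ * ξ + (P.freyCurve⁄Kb).a₆) : Polynomial Kb).degree = 2 := by
        compute_degree!
      rw [this]; norm_num)
  have heq : (P.freyCurve⁄Kb).toAffine.Equation ξ y := by
    rw [Affine.equation_iff]
    simp only [Polynomial.IsRoot, Polynomial.eval_sub, Polynomial.eval_add, Polynomial.eval_pow,
      Polynomial.eval_X, Polynomial.eval_mul, Polynomial.eval_C] at hy
    linear_combination hy
  have hns := ((P.freyCurve⁄Kb).toAffine.equation_iff_nonsingular_of_Δ_ne_zero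
    (frey_Δ_ne_zero P)).mp heq
  exact ⟨.some ξ y hns, Point.some_ne_zero hns, by simp⟩

end Fermat.Agent.S13lib
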